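import Mathlib
import Fermat.Agent.Lib.RR.Riemann
import Fermat.Prelude.Def_AlgebraicCurve_BaseChangeGalois

set_option autoImplicit false

/-!
# A3e, piece D5a: the canonical effective representative of a degree-zero class

For a function field `F/K` satisfying the standing hypotheses `IsRRField K F`, a place `P` and a
divisor `D` of degree `0`, let `m` be the least natural number with `L(D + mP) ≠ 0`.  Then
`ℓ(D + mP) = 1`, so the effective divisor `E = D + mP + div f` (`f ∈ L(D + mP)` nonzero) does not
depend on `f`: `(m, E)` is canonically attached to the class of `D` and the place `P`.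
Consequently every semilinear automorphism fixing `P` and the class of `D` fixes `E`.

Only Riemann's inequality (`exists_riemann_bound`) is used.
-/

noncomputable section

open AlgebraicCurve Fermat.Agent.RR

namespace Fermat.Agent.F3I2

variable {K F : Type*} [Field K] [Field F] [Algebra K F]

/-- principal divisors are exactly the `divOf h f`, `f ≠ 0`. -/
theorem canon_mem_principal_iff (h : IsRRField K F) (D : Divisor K F) :
    D ∈ Divisor.principal (K := K) (F := F) ↔ ∃ f : F, f ≠ 0 ∧ D = divOf h f := by
  constructor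
  · rintro ⟨f, hf, hD⟩
    exact ⟨f, hf, Finsupp.ext fun v => by rw [hD v, divOf_apply]⟩
  · rintro ⟨f, hf, rfl⟩
    exact ⟨f, hf, fun v => divOf_apply h f v⟩

/-- an effective `E` with `E - D - mP = div f` gives `f ∈ L(D + mP)`. -/
theorem canon_mem_of_effective (h : IsRRField K F) (P : Place K F) (D : Divisor K F) (m : ℕ)
    (E : Divisor K F) (hE : 0 ≤ E) {f : F} (hf : f ≠ 0)
    (hED : E - D - Finsupp.single P (m : ℤ) = divOf h f) :
    f ∈ riemannRochSpace (D + Finsupp.single P (m : ℤ)) := by
  rw [mem_riemannRochSpace_iff_le h hf, ← hED, Finsupp.le_def]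
  intro v
  have hv := Finsupp.le_def.mp hE v
  simp only [Finsupp.coe_zero, Pi.zero_apply] at hv
  simp only [Finsupp.neg_apply, Finsupp.add_apply, Finsupp.sub_apply]
  omega

/-- the divisor of `c • f` for a nonzero constant `c`. -/
theorem canon_divOf_smul (h : IsRRField K F) {c : K} (hc : c ≠ 0) {f : F} (hf : f ≠ 0) :
    divOf h (c • f) = divOf h f := by
  ext v
  rw [divOf_apply, divOf_apply, Algebra.smul_def,
    v.ord_mul (by simpa using hc) hf, Fermat.Agent.S24Res.ord_algebraMap, zero_add]

/-- there is `m` with `L(D + mP) ≠ 0` (Riemann's inequality). -/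
theorem canon_exists_ell_ne_zero (h : IsRRField K F) (P : Place K F) (D : Divisor K F)
    (hD : Divisor.degree D = 0) :
    ∃ m : ℕ, ell (D + Finsupp.single P (m : ℤ)) ≠ 0 := by
  obtain ⟨γ, hγ⟩ := exists_riemann_bound h
  refine ⟨(γ + 1).toNat, fun h0 => ?_⟩
  have h1 := hγ (D + Finsupp.single P (((γ + 1).toNat : ℕ) : ℤ))
  rw [map_add, hD, degree_single_one h, zero_add, h0] at h1
  have h2 : γ + 1 ≤ ((γ + 1).toNat : ℤ) := Int.self_le_toNat _
  push_cast at h1
  omega

/-- at the least `m` with `L(D + mP) ≠ 0` the space `L(D + mP)` is a line. -/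
theorem canon_ell_eq_one (h : IsRRField K F) (P : Place K F) (D : Divisor K F)
    (hD : Divisor.degree D = 0) (m : ℕ) (hne : ell (D + Finsupp.single P (m : ℤ)) ≠ 0)
    (hmin : ∀ k < m, ell (D + Finsupp.single P (k : ℤ)) = 0) :
    ell (D + Finsupp.single P (m : ℤ)) = 1 := by
  rcases Nat.eq_zero_or_pos m with h0 | hpos
  · subst h0
    have hdeg : Divisor.degree (D + Finsupp.single P ((0 : ℕ) : ℤ)) = 0 := by
      rw [map_add, hD, degree_single_one h]; simp
    have hle := ell_le_degree_add_one h (D := D + Finsupp.single P ((0 : ℕ) : ℤ)) (by rw [hdeg])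
    rw [hdeg] at hle
    have : ell (D + Finsupp.single P ((0 : ℕ) : ℤ)) ≤ 1 := by exact_mod_cast hle
    omega
  · obtain ⟨k, rfl⟩ : ∃ k, m = k + 1 := ⟨m - 1, by omega⟩
    have h0 := hmin k (by omega)
    have hle := ell_add_single_le h (D + Finsupp.single P (k : ℤ)) P
    have heq : D + Finsupp.single P (k : ℤ) + Finsupp.single P 1
        = D + Finsupp.single P (((k + 1 : ℕ)) : ℤ) := by
      rw [add_assoc, ← Finsupp.single_add]; push_cast; rfl
    rw [heq, h0] at hle
    omega

/-- **D5a**: the canonical effective representative `E ~ D + mP` with `m` minimal. -/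
theorem exists_canonical_effective (h : IsRRField K F) (P : Place K F) (D : Divisor K F)
    (hD : Divisor.degree D = 0) :
    ∃ (m : ℕ) (E : Divisor K F), 0 ≤ E ∧
      (E - D - Finsupp.single P (m : ℤ)) ∈ Divisor.principal (K := K) (F := F) ∧
      ∀ (m' : ℕ) (E' : Divisor K F), 0 ≤ E' →
        (E' - D - Finsupp.single P (m' : ℤ)) ∈ Divisor.principal (K := K) (F := F) →
        m ≤ m' ∧ (m' = m → E' = E) := by
  classical
  have hex := canon_exists_ell_ne_zero h P D hD
  obtain ⟨m, hne, hmin⟩ : ∃ m : ℕ, ell (D + Finsupp.single P (m : ℤ)) ≠ 0 ∧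
      ∀ k < m, ell (D + Finsupp.single P (k : ℤ)) = 0 :=
    ⟨Nat.find hex, Nat.find_spec hex, fun k hk => not_not.mp (Nat.find_min hex hk)⟩
  have hone := canon_ell_eq_one h P D hD m hne hmin
  have := finite_riemannRochSpace h (D + Finsupp.single P (m : ℤ))
  have hpos : 0 < Module.finrank K (riemannRochSpace (D + Finsupp.single P (m : ℤ))) := by
    rw [← ell_def]; omega
  obtain ⟨⟨f, hfL⟩, hf0⟩ := Module.finrank_pos_iff_exists_ne_zero.mp hpos
  have hf : f ≠ 0 := fun h0 => hf0 (Subtype.ext h0)
  refine ⟨m, D + Finsupp.single P (m : ℤ) + divOf h f, ?_, ?_, ?_⟩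
  · have hle := (mem_riemannRochSpace_iff_le h hf).mp hfL
    rw [Finsupp.le_def] at hle ⊢
    intro v
    have hv := hle v
    simp only [Finsupp.neg_apply, Finsupp.add_apply] at hv
    simp only [Finsupp.coe_zero, Pi.zero_apply, Finsupp.add_apply]
    omega
  · rw [canon_mem_principal_iff h]
    exact ⟨f, hf, by abel⟩
  · intro m' E' hE' hE'D
    obtain ⟨f', hf', hdiv⟩ := (canon_mem_principal_iff h _).mp hE'D
    have hf'L := canon_mem_of_effective h P D m' E' hE' hf' hdiv
    have hm' : ell (D + Finsupp.single P (m' : ℤ)) ≠ 0 := by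
      intro h0
      have := finite_riemannRochSpace h (D + Finsupp.single P (m' : ℤ))
      rw [ell_def] at h0
      have hbot := Submodule.finrank_eq_zero.mp h0
      rw [hbot] at hf'L
      exact hf' ((Submodule.mem_bot K).mp hf'L)
    have hle : m ≤ m' := by
      by_contra hlt
      exact hm' (hmin m' (not_le.mp hlt))
    refine ⟨hle, fun hmm => ?_⟩
    subst hmm
    obtain ⟨c, hc⟩ := (finrank_eq_one_iff_of_nonzero' (⟨f, hfL⟩ :
      riemannRochSpace (D + Finsupp.single P (m' : ℤ))) hf0).mp
        (by rw [← ell_def]; exact hone) ⟨f', hf'L⟩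
    have hc' : c • f = f' := congrArg Subtype.val hc
    have hc0 : c ≠ 0 := by
      rintro rfl
      rw [zero_smul] at hc'
      exact hf' hc'.symm
    have hdivf : divOf h f' = divOf h f := by
      rw [← hc', canon_divOf_smul h hc0 hf]
    have hE'eq : E' = D + Finsupp.single P (m' : ℤ) + divOf h f' := by
      rw [← hdiv]; abel
    rw [hE'eq, hdivf]

set_option linter.unusedVariables false in
/-- **D5a, corollary**: a semilinear automorphism fixing `P` and the class of `D` fixes the
canonical effective representative. -/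
theorem canonical_effective_fixed (h : IsRRField K F) (P : Place K F) (D : Divisor K F)
    (hD : Divisor.degree D = 0)
    (m : ℕ) (E : Divisor K F) (hE : 0 ≤ E)
    (hED : (E - D - Finsupp.single P (m:ℤ)) ∈ Divisor.principal (K := K) (F := F))
    (huniq : ∀ (m' : ℕ) (E' : Divisor K F), 0 ≤ E' →
      (E' - D - Finsupp.single P (m':ℤ)) ∈ Divisor.principal (K := K) (F := F) →
      m ≤ m' ∧ (m' = m → E' = E))
    (g : SemilinearAut K F) (hgP : g • P = P)
    (hgD : (g • D - D) ∈ Divisor.principal (K := K) (F := F)) : g • E = E := by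
  have hgE : 0 ≤ g • E := by
    rw [Finsupp.le_def]
    intro v
    rw [SemilinearAut.divisor_smul_apply]
    exact Finsupp.le_def.mp hE _
  have hprin : (g • E - D - Finsupp.single P (m:ℤ)) ∈ Divisor.principal (K := K) (F := F) := by
    have h1 := SemilinearAut.smul_mem_principal g hED
    rw [smul_sub, smul_sub, SemilinearAut.smul_single, hgP] at h1
    have h2 := (Divisor.principal (K := K) (F := F)).add_mem h1 hgD
    have h3 : g • E - g • D - Finsupp.single P (m:ℤ) + (g • D - D)
        = g • E - D - Finsupp.single P (m:ℤ) := by abel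
    rwa [h3] at h2
  exact (huniq m (g • E) hgE hprin).2 rfl

end Fermat.Agent.F3I2
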