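/-
Cluster A (F3), piece A3e (descent ℂ → ℚ̄), helper82.

Interface `DescPlaces` (place extension along `θ : F_K → F_K'`, provided by the constant field
extension theory) and its first consequences:
* extension places are fixed by `G = Aut(K'/K)`;
* `descBcDiv` (base change of divisors) and its compatibility with principal divisors;
* `descBcDiv_principal_descends` : if the base change of `D` is principal then `D` is principal
  (injectivity of `Pic0(F_K) → Pic0(F_K')`).
-/
import Mathlib
import Fermat.Agent.F3.I2.Descent.Fixed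
import Fermat.Agent.Lib.RR.Basic

set_option autoImplicit false

noncomputable section

namespace Fermat.Agent.F3I2

open ModularCurve HahnSeries AlgebraicCurve

theorem descPlace_eq_of_ord {K F : Type*} [Field K] [Field F] [Algebra K F] {v v' : Place K F}
    (h : ∀ f : F, v.ord f = v'.ord f) : v = v' := by
  apply Place.ext
  ext f
  rw [Fermat.Agent.S24Res.mem_iff_ord_nonneg, Fermat.Agent.S24Res.mem_iff_ord_nonneg, h f]

theorem descPlace_ord_algebraMap {K F : Type*} [Field K] [Field F] [Algebra K F] (v : Place K F)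
    {c : K} (hc : c ≠ 0) : v.ord (algebraMap K F c) = 0 := by
  have h1 : 0 ≤ v.ord (algebraMap K F c) :=
    Fermat.Agent.S24Res.ord_nonneg_of_mem v (v.algebraMap_mem' c)
  have h2 : 0 ≤ v.ord (algebraMap K F c⁻¹) :=
    Fermat.Agent.S24Res.ord_nonneg_of_mem v (v.algebraMap_mem' c⁻¹)
  rw [map_inv₀, v.ord_inv] at h2
  omega

variable (K K' : Type*) [Field K] [Field K'] [Algebra ℚ K] [Algebra ℚ K'] [Algebra K K']
variable (F₀ : IntermediateField ℚ (LaurentSeries ℚ))

/-- Place extension data along `θ : F_K → F_K'`. -/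
structure DescPlaces where
  /-- the unique place of `F_K'` above a place of `F_K` -/
  ext : Place K (laurentBaseChange K F₀) → Place K' (laurentBaseChange K' F₀)
  ext_injective : Function.Injective ext
  /-- ramification index one -/
  ord_ext : ∀ v f, (ext v).ord (descTheta K K' F₀ f) = v.ord f
  /-- a place of `F_K'` is an extension place, or is trivial on `θ F_K` -/
  dich : ∀ w : Place K' (laurentBaseChange K' F₀),
    (∃ v, ext v = w) ∨ (∀ f : laurentBaseChange K F₀, w.ord (descTheta K K' F₀ f) = 0)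

namespace DescPlaces

variable {K K' F₀}
variable (P : DescPlaces K K' F₀)

theorem eq_ext_of_ord (v : Place K (laurentBaseChange K F₀))
    (w : Place K' (laurentBaseChange K' F₀))
    (h : ∀ f, w.ord (descTheta K K' F₀ f) = v.ord f) : w = P.ext v := by
  rcases P.dich w with ⟨v', rfl⟩ | h0
  · congr 1
    refine descPlace_eq_of_ord fun f => ?_
    rw [← h f, P.ord_ext]
  · exfalso
    obtain ⟨t, ht⟩ := Fermat.Agent.RR.exists_uniformizer v
    have := h t
    rw [h0 t, ht] at this
    exact zero_ne_one this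

/-- extension places are fixed by `Aut(K'/K)`. -/
theorem smul_ext {σ : K' ≃ₐ[ℚ] K'} (hσ : σ ∈ descGal K K')
    (v : Place K (laurentBaseChange K F₀)) :
    arithmeticGalois F₀ σ • P.ext v = P.ext v := by
  refine P.eq_ext_of_ord v _ fun f => ?_
  have h1 := SemilinearAut.ord_smul (arithmeticGalois F₀ σ) (P.ext v) (descTheta K K' F₀ f)
  rw [descGal_smul_theta F₀ hσ] at h1
  rw [h1, P.ord_ext]

/-- base change of divisors -/
def bcDiv : Divisor K (laurentBaseChange K F₀) →+ Divisor K' (laurentBaseChange K' F₀) :=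
  Finsupp.mapDomain.addMonoidHom P.ext

theorem bcDiv_apply_ext (D : Divisor K (laurentBaseChange K F₀))
    (v : Place K (laurentBaseChange K F₀)) : P.bcDiv D (P.ext v) = D v :=
  Finsupp.mapDomain_apply P.ext_injective D v

theorem bcDiv_apply_of_not (D : Divisor K (laurentBaseChange K F₀))
    (w : Place K' (laurentBaseChange K' F₀)) (hw : ∀ v, P.ext v ≠ w) : P.bcDiv D w = 0 :=
  Finsupp.mapDomain_notin_range D w (by rintro ⟨v, hv⟩; exact hw v hv)

theorem bcDiv_single (v : Place K (laurentBaseChange K F₀)) (n : ℤ) :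
    P.bcDiv (Finsupp.single v n) = Finsupp.single (P.ext v) n :=
  Finsupp.mapDomain_single

theorem bcDiv_injective : Function.Injective P.bcDiv :=
  Finsupp.mapDomain_injective P.ext_injective

/-- `bcDiv (div f) = div (θ f)` -/
theorem bcDiv_principal (D : Divisor K (laurentBaseChange K F₀)) (f : laurentBaseChange K F₀)
    (hD : ∀ v, D v = v.ord f) (w : Place K' (laurentBaseChange K' F₀)) :
    P.bcDiv D w = w.ord (descTheta K K' F₀ f) := by
  rcases P.dich w with ⟨v, rfl⟩ | h0
  · rw [P.bcDiv_apply_ext, P.ord_ext, hD]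
  · by_cases hw : ∃ v, P.ext v = w
    · obtain ⟨v, rfl⟩ := hw
      rw [P.bcDiv_apply_ext, P.ord_ext, hD]
    · push_neg at hw
      rw [P.bcDiv_apply_of_not D w hw, h0]

theorem smul_bcDiv {σ : K' ≃ₐ[ℚ] K'} (hσ : σ ∈ descGal K K')
    (D : Divisor K (laurentBaseChange K F₀)) :
    arithmeticGalois F₀ σ • P.bcDiv D = P.bcDiv D := by
  induction D using Finsupp.induction with
  | zero => simp
  | single_add v n D _ _ ih =>
      rw [map_add, smul_add, ih, bcDiv_single, SemilinearAut.smul_single, P.smul_ext hσ]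

theorem bcDiv_smul_apply {σ : K' ≃ₐ[ℚ] K'} (hσ : σ ∈ descGal K K')
    (D : Divisor K (laurentBaseChange K F₀)) (w : Place K' (laurentBaseChange K' F₀)) :
    P.bcDiv D (arithmeticGalois F₀ σ • w) = P.bcDiv D w := by
  have h := SemilinearAut.divisor_smul_apply_smul (arithmeticGalois F₀ σ) (P.bcDiv D) w
  rw [P.smul_bcDiv hσ] at h
  exact h

/-- **Injectivity of the base change on divisor classes.** -/
theorem bcDiv_principal_descends [IsAlgClosed K] [IsAlgClosed K'] [CharZero K']
    (hconst : ∀ y : laurentBaseChange K' F₀, y ≠ 0 →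
      (∀ w : Place K' (laurentBaseChange K' F₀), w.ord y = 0) →
      ∃ a : K', y = algebraMap K' (laurentBaseChange K' F₀) a)
    (D : Divisor K (laurentBaseChange K F₀)) (x' : laurentBaseChange K' F₀) (hx' : x' ≠ 0)
    (h : ∀ w, P.bcDiv D w = w.ord x') :
    ∃ x : laurentBaseChange K F₀, x ≠ 0 ∧ ∀ v, D v = v.ord x := by
  obtain ⟨c, k, hc, hk⟩ := descNormalize F₀ x' hx'
  set x'' := algebraMap K' (laurentBaseChange K' F₀) c * x' with hx''
  have hcne : algebraMap K' (laurentBaseChange K' F₀) c ≠ 0 := by simpa using hc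
  have hord : ∀ w : Place K' (laurentBaseChange K' F₀), w.ord x'' = P.bcDiv D w := by
    intro w
    rw [hx'', w.ord_mul hcne hx', descPlace_ord_algebraMap w hc, zero_add, h]
  have hfix : ∀ σ ∈ descGal K K', arithmeticGalois F₀ σ • x'' = x'' := by
    intro σ hσ
    refine descFixed_of_ord F₀ hconst x'' k hk σ fun w => ?_
    rw [hord, hord, P.bcDiv_smul_apply hσ]
  have hfin : Set.Finite {y : laurentBaseChange K' F₀ |
      ∃ σ ∈ descGal K K', arithmeticGalois F₀ σ • x'' = y} := by
    refine (Set.finite_singleton x'').subset ?_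
    rintro y ⟨σ, hσ, rfl⟩
    exact hfix σ hσ
  obtain ⟨x, hx⟩ := descTheta_of_finite_orbit K K' F₀ x'' hfin
  have hx''0 : x'' ≠ 0 := mul_ne_zero hcne hx'
  refine ⟨x, ?_, fun v => ?_⟩
  · rintro rfl
    rw [map_zero] at hx
    exact hx''0 hx.symm
  · rw [← P.bcDiv_apply_ext D v, ← hord, ← hx, P.ord_ext]

end DescPlaces

end Fermat.Agent.F3I2
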