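/-
Cluster A (F3), piece A3e (descent ℂ → ℚ̄), helper82.

**Surjectivity of the base change on torsion classes**: a degree-zero divisor `D'` of `F_K'` whose
class is killed by `n > 0` is linearly equivalent to the base change of a degree-zero divisor of
`F_K`, provided the `n`-torsion of `Pic0 (F_K')` is finite.

Proof: canonical effective representative `E ~ D' + m P₀` (`P₀` an extension place), stable under
the stabiliser of the class; `n (E - m P₀) = div x''` with `x''` normalised, so `x''` has finite
orbit under `Aut(K'/K)`, hence `x'' = θ h₀`.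
-/
import Mathlib
import Fermat.Agent.F3.I2.Descent.Places
import Fermat.Agent.F3.I2.Descent.Canon

set_option autoImplicit false

noncomputable section

namespace Fermat.Agent.F3I2

open ModularCurve HahnSeries AlgebraicCurve Fermat.Agent.RR

/-- a function without zeros and poles is constant. -/
theorem descConst_of_isRRField {K F : Type*} [Field K] [Field F] [Algebra K F]
    (h : IsRRField K F) (y : F) (hw : ∀ w : Place K F, w.ord y = 0) :
    ∃ a : K, y = algebraMap K F a := by
  have hy : y ∈ riemannRochSpace (0 : Divisor K F) := by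
    rw [mem_riemannRochSpace_iff]
    intro v
    right
    simp [hw v]
  obtain ⟨a, ha⟩ := (mem_riemannRochSpace_zero_iff h y).mp hy
  exact ⟨a, ha.symm⟩

theorem descDegree_eq_zero_of_principal {K F : Type*} [Field K] [Field F] [Algebra K F]
    (h : IsRRField K F) {D : Divisor K F} (hD : D ∈ Divisor.principal (K := K) (F := F)) :
    Divisor.degree D = 0 := by
  obtain ⟨f, -, rfl⟩ := (canon_mem_principal_iff h D).mp hD
  exact degree_divOf h f

theorem descPic0_mk_eq_iff {K F : Type*} [Field K] [Field F] [Algebra K F]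
    (D E : Divisor.degZero (K := K) (F := F)) :
    Pic0.mk D = Pic0.mk E ↔ ((D : Divisor K F) - E) ∈ Divisor.principal (K := K) (F := F) := by
  rw [Pic0.mk, Pic0.mk, QuotientAddGroup.eq, AddSubgroup.mem_addSubgroupOf]
  constructor
  · intro h
    have := neg_mem h
    simpa [sub_eq_add_neg, add_comm] using this
  · intro h
    have := neg_mem h
    simpa [sub_eq_add_neg, add_comm] using this

theorem descPic0_nsmul_mk_eq_zero_iff {K F : Type*} [Field K] [Field F] [Algebra K F]
    (n : ℕ) (D : Divisor.degZero (K := K) (F := F)) :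
    n • Pic0.mk D = 0 ↔ (n • (D : Divisor K F)) ∈ Divisor.principal (K := K) (F := F) := by
  have h1 : n • Pic0.mk D = Pic0.mk (n • D) := rfl
  rw [h1, ← Pic0.mk_zero, descPic0_mk_eq_iff]
  simp

variable {K K' : Type*} [Field K] [Field K'] [Algebra ℚ K] [Algebra ℚ K'] [Algebra K K']
variable {F₀ : IntermediateField ℚ (LaurentSeries ℚ)}

namespace DescPlaces

variable (P : DescPlaces K K' F₀)

/-- **Surjectivity of the base change on torsion classes** (divisor form). -/
theorem torsion_descends [IsAlgClosed K] [IsAlgClosed K'] [CharZero K']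
    (hK : IsRRField K (laurentBaseChange K F₀)) (hK' : IsRRField K' (laurentBaseChange K' F₀))
    (n : ℕ) (hn : 0 < n)
    (hfin : {c : Pic0 K' (laurentBaseChange K' F₀) | n • c = 0}.Finite)
    (D' : Divisor.degZero (K := K') (F := laurentBaseChange K' F₀))
    (hnD' : n • Pic0.mk D' = 0) :
    ∃ D : Divisor K (laurentBaseChange K F₀), Divisor.degree D = 0 ∧
      ((D' : Divisor K' (laurentBaseChange K' F₀)) - P.bcDiv D) ∈
        Divisor.principal (K := K') (F := laurentBaseChange K' F₀) := by
  classical
  obtain ⟨v₀⟩ := nonempty_place hK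
  set P₀ := P.ext v₀ with hP₀
  have hD'0 : Divisor.degree (D' : Divisor K' (laurentBaseChange K' F₀)) = 0 := D'.2
  obtain ⟨m, E, hE, hED, huniq⟩ := exists_canonical_effective hK' P₀ (D' : Divisor K' _) hD'0
  set D'' : Divisor K' (laurentBaseChange K' F₀) := E - Finsupp.single P₀ (m : ℤ) with hD''
  -- `n D''` is principal
  have hnD'' : n • D'' ∈ Divisor.principal (K := K') (F := laurentBaseChange K' F₀) := by
    have h1 := (descPic0_nsmul_mk_eq_zero_iff n D').mp hnD'
    have h2 := nsmul_mem hED n
    have h3 := add_mem h2 h1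
    have h4 : n • (E - (D' : Divisor K' (laurentBaseChange K' F₀)) - Finsupp.single P₀ (m : ℤ))
        + n • (D' : Divisor K' (laurentBaseChange K' F₀)) = n • D'' := by
      rw [hD'', ← nsmul_add]
      congr 1
      abel
    rwa [h4] at h3
  obtain ⟨x', hx'0, hx'⟩ := hnD''
  obtain ⟨c, k, hc, hk⟩ := descNormalize F₀ x' hx'0
  set x'' := algebraMap K' (laurentBaseChange K' F₀) c * x' with hx''
  have hcne : algebraMap K' (laurentBaseChange K' F₀) c ≠ 0 := by simpa using hc
  have hx''0 : x'' ≠ 0 := mul_ne_zero hcne hx'0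
  have hord : ∀ w : Place K' (laurentBaseChange K' F₀), w.ord x'' = (n : ℤ) * D'' w := by
    intro w
    rw [hx'', w.ord_mul hcne hx'0, descPlace_ord_algebraMap w hc, zero_add, ← hx' w]
    simp
  have hconst : ∀ y : laurentBaseChange K' F₀, y ≠ 0 →
      (∀ w : Place K' (laurentBaseChange K' F₀), w.ord y = 0) →
      ∃ a : K', y = algebraMap K' (laurentBaseChange K' F₀) a :=
    fun y _ hy => descConst_of_isRRField hK' y hy
  -- the stabiliser of the class fixes `x''`
  have hfix : ∀ ρ ∈ descGal K K', arithmeticGalois F₀ ρ • Pic0.mk D' = Pic0.mk D' →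
      arithmeticGalois F₀ ρ • x'' = x'' := by
    intro ρ hρ hρx
    set g := arithmeticGalois F₀ ρ with hg
    have hgD : (g • (D' : Divisor K' (laurentBaseChange K' F₀)) - D') ∈
        Divisor.principal (K := K') (F := laurentBaseChange K' F₀) := by
      rw [SemilinearAut.pic0_smul_mk, descPic0_mk_eq_iff] at hρx
      exact hρx
    have hgE : g • E = E :=
      canonical_effective_fixed hK' P₀ _ hD'0 m E hE hED huniq g (P.smul_ext hρ v₀) hgD
    have hgD'' : g • D'' = D'' := by
      rw [hD'', smul_sub, hgE, SemilinearAut.smul_single, P.smul_ext hρ v₀]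
    refine descFixed_of_ord F₀ hconst x'' k hk ρ fun w => ?_
    rw [hord, hord]
    congr 1
    have := SemilinearAut.divisor_smul_apply_smul g D'' w
    rw [hgD''] at this
    exact this
  have hkey : ∀ σ ∈ descGal K K', ∀ τ ∈ descGal K K',
      arithmeticGalois F₀ σ • Pic0.mk D' = arithmeticGalois F₀ τ • Pic0.mk D' →
      arithmeticGalois F₀ σ • x'' = arithmeticGalois F₀ τ • x'' := by
    intro σ hσ τ hτ h
    have hρ : τ⁻¹ * σ ∈ descGal K K' := mul_mem (inv_mem hτ) hσ
    have h1 : arithmeticGalois F₀ (τ⁻¹ * σ) • Pic0.mk D' = Pic0.mk D' := by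
      rw [map_mul, mul_smul, h, ← mul_smul, map_inv, inv_mul_cancel, one_smul]
    have h2 := hfix _ hρ h1
    have h3 : arithmeticGalois F₀ σ = arithmeticGalois F₀ τ * arithmeticGalois F₀ (τ⁻¹ * σ) := by
      rw [← map_mul, mul_inv_cancel_left]
    rw [h3, mul_smul, h2]
  -- finite orbit
  have hfinorb : Set.Finite {y : laurentBaseChange K' F₀ |
      ∃ σ ∈ descGal K K', arithmeticGalois F₀ σ • x'' = y} := by
    let ψ : Pic0 K' (laurentBaseChange K' F₀) → laurentBaseChange K' F₀ := fun c =>
      if h : ∃ σ ∈ descGal K K', arithmeticGalois F₀ σ • Pic0.mk D' = c then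
        arithmeticGalois F₀ h.choose • x'' else 0
    refine (hfin.image ψ).subset ?_
    rintro y ⟨σ, hσ, rfl⟩
    refine ⟨arithmeticGalois F₀ σ • Pic0.mk D', ?_, ?_⟩
    · show n • (arithmeticGalois F₀ σ • Pic0.mk D') = 0
      rw [smul_comm, hnD']
      exact smul_zero (A := Pic0 K' (laurentBaseChange K' F₀)) (arithmeticGalois F₀ σ)
    · have hex : ∃ τ ∈ descGal K K',
          arithmeticGalois F₀ τ • Pic0.mk D' = arithmeticGalois F₀ σ • Pic0.mk D' :=
        ⟨σ, hσ, rfl⟩
      show (if h : ∃ τ ∈ descGal K K',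
          arithmeticGalois F₀ τ • Pic0.mk D' = arithmeticGalois F₀ σ • Pic0.mk D' then
        arithmeticGalois F₀ h.choose • x'' else 0) = _
      rw [dif_pos hex]
      exact hkey _ hex.choose_spec.1 _ hσ hex.choose_spec.2
  obtain ⟨h₀, hh₀⟩ := descTheta_of_finite_orbit K K' F₀ x'' hfinorb
  -- the divisor over `K`
  have hsupp : (D''.support : Set (Place K' (laurentBaseChange K' F₀))) ⊆ Set.range P.ext := by
    intro w hw
    rw [Finset.mem_coe, Finsupp.mem_support_iff] at hw
    rcases P.dich w with ⟨v, rfl⟩ | h0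
    · exact ⟨v, rfl⟩
    · exfalso
      have h1 := hord w
      rw [← hh₀, h0 h₀] at h1
      have hn0 : (n : ℤ) ≠ 0 := by exact_mod_cast hn.ne'
      exact hw ((mul_eq_zero.mp h1.symm).resolve_left hn0)
  let D : Divisor K (laurentBaseChange K F₀) :=
    Finsupp.comapDomain P.ext D'' P.ext_injective.injOn
  have hbc : P.bcDiv D = D'' := Finsupp.mapDomain_comapDomain P.ext P.ext_injective D'' hsupp
  have hnD : n • D ∈ Divisor.principal (K := K) (F := laurentBaseChange K F₀) := by
    refine ⟨h₀, ?_, fun v => ?_⟩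
    · rintro rfl
      rw [map_zero] at hh₀
      exact hx''0 hh₀.symm
    · have h1 := hord (P.ext v)
      rw [← hh₀, P.ord_ext] at h1
      rw [h1]
      simp [D, Finsupp.comapDomain_apply]
  refine ⟨D, ?_, ?_⟩
  · have h1 := descDegree_eq_zero_of_principal hK hnD
    rw [map_nsmul, nsmul_eq_mul] at h1
    have hn0 : (n : ℤ) ≠ 0 := by exact_mod_cast hn.ne'
    rcases mul_eq_zero.mp h1 with h | h
    · exact absurd h hn0
    · exact h
  · rw [hbc, hD'']
    have := neg_mem hED
    have h2 : -(E - (D' : Divisor K' (laurentBaseChange K' F₀)) - Finsupp.single P₀ (m : ℤ))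
        = (D' : Divisor K' (laurentBaseChange K' F₀)) - (E - Finsupp.single P₀ (m : ℤ)) := by
      abel
    rwa [h2] at this

end DescPlaces

end Fermat.Agent.F3I2
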