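/-
Cluster A (F3), piece A3e (descent ℂ → ℚ̄), helper82.

The base change homomorphism `bc : Pic0 (F_K) →+ Pic0 (F_K')` attached to place extension data
`P : DescPlaces K K' F₀`, and its properties:
* `bc_mk`;
* `bc_injective`;
* `bc_surjective_torsion` : every class killed by `n > 0` is in the range (finite `n`-torsion).
-/
import Mathlib
import Fermat.Agent.F3.I2.Descent.Surj

set_option autoImplicit false

noncomputable section

namespace Fermat.Agent.F3I2

open ModularCurve HahnSeries AlgebraicCurve Fermat.Agent.RR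

variable {K K' : Type*} [Field K] [Field K'] [Algebra ℚ K] [Algebra ℚ K'] [Algebra K K']
variable {F₀ : IntermediateField ℚ (LaurentSeries ℚ)}

namespace DescPlaces

variable (P : DescPlaces K K' F₀)

theorem degree_bcDiv (hK : IsRRField K (laurentBaseChange K F₀))
    (hK' : IsRRField K' (laurentBaseChange K' F₀)) (D : Divisor K (laurentBaseChange K F₀)) :
    Divisor.degree (P.bcDiv D) = Divisor.degree D := by
  induction D using Finsupp.induction with
  | zero => simp
  | single_add v n D _ _ ih =>
      rw [map_add, map_add, map_add, ih, bcDiv_single, Divisor.degree_single,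
        Divisor.degree_single, hK.deg_one, hK'.deg_one]

theorem bcDiv_mem_principal {D : Divisor K (laurentBaseChange K F₀)}
    (hD : D ∈ Divisor.principal (K := K) (F := laurentBaseChange K F₀)) :
    P.bcDiv D ∈ Divisor.principal (K := K') (F := laurentBaseChange K' F₀) := by
  obtain ⟨f, hf, hD⟩ := hD
  exact ⟨descTheta K K' F₀ f, (map_ne_zero _).mpr hf, fun w => P.bcDiv_principal D f hD w⟩

/-- base change on degree-zero divisors -/
def bcDegZero (hK : IsRRField K (laurentBaseChange K F₀))
    (hK' : IsRRField K' (laurentBaseChange K' F₀)) :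
    Divisor.degZero (K := K) (F := laurentBaseChange K F₀) →+
      Divisor.degZero (K := K') (F := laurentBaseChange K' F₀) :=
  (P.bcDiv.comp (Divisor.degZero (K := K) (F := laurentBaseChange K F₀)).subtype).codRestrict _
    (fun D => by
      rw [Divisor.mem_degZero]
      show Divisor.degree (P.bcDiv (D : Divisor K _)) = 0
      rw [P.degree_bcDiv hK hK']
      exact D.2)

@[simp]
theorem coe_bcDegZero (hK : IsRRField K (laurentBaseChange K F₀))
    (hK' : IsRRField K' (laurentBaseChange K' F₀))
    (D : Divisor.degZero (K := K) (F := laurentBaseChange K F₀)) :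
    (P.bcDegZero hK hK' D : Divisor K' (laurentBaseChange K' F₀)) = P.bcDiv (D : Divisor K _) :=
  rfl

/-- **the base change homomorphism** `Pic0 (F_K) →+ Pic0 (F_K')` -/
def bc (hK : IsRRField K (laurentBaseChange K F₀))
    (hK' : IsRRField K' (laurentBaseChange K' F₀)) :
    Pic0 K (laurentBaseChange K F₀) →+ Pic0 K' (laurentBaseChange K' F₀) :=
  QuotientAddGroup.map _ _ (P.bcDegZero hK hK') (by
    rintro ⟨D, hD0⟩ hD
    simp only [AddSubgroup.mem_addSubgroupOf, AddSubgroup.mem_comap] at hD ⊢
    exact P.bcDiv_mem_principal hD)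

theorem bc_mk (hK : IsRRField K (laurentBaseChange K F₀))
    (hK' : IsRRField K' (laurentBaseChange K' F₀))
    (D : Divisor.degZero (K := K) (F := laurentBaseChange K F₀)) :
    P.bc hK hK' (Pic0.mk D) = Pic0.mk (P.bcDegZero hK hK' D) := rfl

/-- **`bc` is injective.** -/
theorem bc_injective [IsAlgClosed K] [IsAlgClosed K'] [CharZero K']
    (hK : IsRRField K (laurentBaseChange K F₀))
    (hK' : IsRRField K' (laurentBaseChange K' F₀)) :
    Function.Injective (P.bc hK hK') := by
  rw [injective_iff_map_eq_zero]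
  intro x hx
  obtain ⟨D, rfl⟩ := Pic0.mk_surjective x
  rw [bc_mk, ← Pic0.mk_zero, descPic0_mk_eq_iff] at hx
  simp only [coe_bcDegZero, ZeroMemClass.coe_zero, sub_zero] at hx
  obtain ⟨x', hx'0, hx'⟩ := hx
  obtain ⟨y, hy0, hy⟩ := P.bcDiv_principal_descends
    (fun y _ hy => descConst_of_isRRField hK' y hy) (D : Divisor K _) x' hx'0 hx'
  rw [← Pic0.mk_zero, descPic0_mk_eq_iff]
  simp only [ZeroMemClass.coe_zero, sub_zero]
  exact ⟨y, hy0, hy⟩

/-- **`bc` is onto the torsion.** -/
theorem bc_surjective_torsion [IsAlgClosed K] [IsAlgClosed K'] [CharZero K']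
    (hK : IsRRField K (laurentBaseChange K F₀))
    (hK' : IsRRField K' (laurentBaseChange K' F₀))
    (n : ℕ) (hn : 0 < n)
    (hfin : {c : Pic0 K' (laurentBaseChange K' F₀) | n • c = 0}.Finite)
    (x' : Pic0 K' (laurentBaseChange K' F₀)) (hx' : n • x' = 0) :
    ∃ x : Pic0 K (laurentBaseChange K F₀), P.bc hK hK' x = x' ∧ n • x = 0 := by
  obtain ⟨D', rfl⟩ := Pic0.mk_surjective x'
  obtain ⟨D, hD0, hD⟩ := P.torsion_descends hK hK' n hn hfin D' hx'
  refine ⟨Pic0.mk ⟨D, hD0⟩, ?_, ?_⟩
  · rw [bc_mk, descPic0_mk_eq_iff]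
    have := neg_mem hD
    simpa using this
  · apply P.bc_injective hK hK'
    rw [map_nsmul, map_zero, bc_mk, ← hx']
    congr 1
    rw [descPic0_mk_eq_iff]
    have := neg_mem hD
    simpa using this

end DescPlaces

end Fermat.Agent.F3I2
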