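/-
Cluster A (F3), piece A3e (descent ℂ → ℚ̄), helper82.

`K ⊂ K'` fields of characteristic 0 (`[Algebra K K']`), `F₀ ⊂ ℚ((q))`, `F = laurentBaseChange K F₀`,
`F' = laurentBaseChange K' F₀`.  This file:
* `descTheta K K' F₀ : F →+* F'`, the coefficientwise embedding;
* (comm) `descTheta_algebraMap`;
* (LD)  `descTheta_linearDisjoint` : a `K`-linearly independent family of constants of `K'`
        stays linearly independent over `θ F`;
* (GEN) `descTheta_adjoin_eq_top`;
* (RAT) `descTheta_rational` : an element of `F'` all of whose coefficients lie in `K` is in `θ F`.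
-/
import Mathlib
import Fermat.Prelude.Def_ModularCurve_LaurentCoeff

set_option autoImplicit false

noncomputable section

namespace Fermat.Agent.F3I2

open ModularCurve HahnSeries

section Coeff

variable {K K' : Type*} [Field K] [Field K'] [Algebra K K']

/-- `coeffMap` along `K → K'` commutes with the constants. -/
theorem descCoeffMap_algebraMap (c : K) :
    coeffMap (algebraMap K K') (algebraMap K (LaurentSeries K) c)
      = algebraMap K' (LaurentSeries K') (algebraMap K K' c) := by
  rw [algebraMap_laurentSeries_eq_single, algebraMap_laurentSeries_eq_single, coeffMap_single]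

theorem descCoeffMap_injective :
    Function.Injective (coeffMap (algebraMap K K') : LaurentSeries K → LaurentSeries K') := by
  intro x y h
  ext k
  have := congrArg (fun z => z.coeff k) h
  simp only [coeffMap_coeff] at this
  exact (algebraMap K K').injective this

theorem descCoeff_const_mul (c : K') (x : LaurentSeries K') (k : ℤ) :
    (algebraMap K' (LaurentSeries K') c * x).coeff k = c * x.coeff k := by
  rw [algebraMap_laurentSeries_eq_single, HahnSeries.coeff_single_zero_mul]

/-- (LD) at the level of Laurent series. -/
theorem descCoeffMap_linearDisjoint {I : Type*} (b : I → K') (hb : LinearIndependent K b)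
    (g : I →₀ LaurentSeries K)
    (h : (g.sum fun i x => algebraMap K' (LaurentSeries K') (b i) *
        coeffMap (algebraMap K K') x) = 0) : g = 0 := by
  classical
  ext i k
  have hk := congrArg (fun z => z.coeff k) h
  simp only [Finsupp.sum, HahnSeries.coeff_zero] at hk
  have hk' : ∑ j ∈ g.support, (g j).coeff k • b j = 0 := by
    rw [← hk]
    rw [show (∑ j ∈ g.support, algebraMap K' (LaurentSeries K') (b j) *
        coeffMap (algebraMap K K') (g j)).coeff k
        = ∑ j ∈ g.support, (algebraMap K' (LaurentSeries K') (b j) *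
          coeffMap (algebraMap K K') (g j)).coeff k from
      map_sum (HahnSeries.coeff.addMonoidHom k) _ _]
    refine Finset.sum_congr rfl fun j _ => ?_
    rw [descCoeff_const_mul, coeffMap_coeff, Algebra.smul_def, mul_comm]
  have := linearIndependent_iff'.mp hb g.support (fun j => (g j).coeff k) hk'
  by_cases hi : i ∈ g.support
  · simpa using this i hi
  · simp [Finsupp.notMem_support_iff.mp hi]

end Coeff

section Theta

variable (K K' : Type*) [Field K] [Field K'] [Algebra ℚ K] [Algebra ℚ K'] [Algebra K K']
variable (F₀ : IntermediateField ℚ (LaurentSeries ℚ))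

variable {K} in
theorem descCoeffMap_coeffEmb (x : LaurentSeries ℚ) :
    coeffMap (algebraMap K K') (coeffEmb K x) = coeffEmb K' x := by
  rw [coeffEmb, coeffMap_coeffMap]
  exact coeffMap_congr (Subsingleton.elim _ _) x

variable {K F₀} in
theorem descCoeffMap_mem {x : LaurentSeries K} (hx : x ∈ laurentBaseChange K F₀) :
    coeffMap (algebraMap K K') x ∈ laurentBaseChange K' F₀ := by
  rw [mem_laurentBaseChange_iff] at hx
  induction hx using Subfield.closure_induction with
  | mem y hy =>
      rcases hy with ⟨a, rfl⟩ | ⟨z, hz, rfl⟩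
      · rw [descCoeffMap_algebraMap]
        exact (laurentBaseChange K' F₀).algebraMap_mem _
      · rw [descCoeffMap_coeffEmb]
        exact coeffEmb_mem_laurentBaseChange K' hz
  | one => simp
  | add _ _ _ _ hx hy => simpa using add_mem hx hy
  | neg _ _ hx => simpa using neg_mem hx
  | inv _ _ hx => simpa using inv_mem hx
  | mul _ _ _ _ hx hy => simpa using mul_mem hx hy

/-- The coefficientwise embedding `θ : F_K → F_{K'}`. -/
def descTheta : laurentBaseChange K F₀ →+* laurentBaseChange K' F₀ where
  toFun x := ⟨coeffMap (algebraMap K K') (x : LaurentSeries K), descCoeffMap_mem K' x.2⟩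
  map_one' := Subtype.ext (map_one (coeffMap (algebraMap K K')))
  map_zero' := Subtype.ext (map_zero (coeffMap (algebraMap K K')))
  map_mul' x y := Subtype.ext (map_mul (coeffMap (algebraMap K K')) _ _)
  map_add' x y := Subtype.ext (map_add (coeffMap (algebraMap K K')) _ _)

@[simp]
theorem coe_descTheta (x : laurentBaseChange K F₀) :
    (descTheta K K' F₀ x : LaurentSeries K') = coeffMap (algebraMap K K') (x : LaurentSeries K) :=
  rfl

/-- (comm) -/
theorem descTheta_algebraMap (a : K) :
    descTheta K K' F₀ (algebraMap K (laurentBaseChange K F₀) a)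
      = algebraMap K' (laurentBaseChange K' F₀) (algebraMap K K' a) :=
  Subtype.ext (descCoeffMap_algebraMap a)

theorem descTheta_injective : Function.Injective (descTheta K K' F₀) :=
  (descTheta K K' F₀).injective

theorem descTheta_coeffEmb {x : LaurentSeries ℚ} (hx : x ∈ F₀) :
    descTheta K K' F₀ ⟨coeffEmb K x, coeffEmb_mem_laurentBaseChange K hx⟩
      = ⟨coeffEmb K' x, coeffEmb_mem_laurentBaseChange K' hx⟩ :=
  Subtype.ext (descCoeffMap_coeffEmb K' x)

/-- (LD) `K`-linearly independent constants stay linearly independent over `θ F`. -/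
theorem descTheta_linearDisjoint {I : Type*} (b : I → K') (hb : LinearIndependent K b)
    (g : I →₀ laurentBaseChange K F₀)
    (h : (g.sum fun i x => algebraMap K' (laurentBaseChange K' F₀) (b i) *
        descTheta K K' F₀ x) = 0) : g = 0 := by
  classical
  have h1 : ∑ x ∈ g.support, algebraMap K' (LaurentSeries K') (b x) *
      coeffMap (algebraMap K K') (g x : LaurentSeries K) = 0 := by
    have := congrArg (fun z : laurentBaseChange K' F₀ => (z : LaurentSeries K')) h
    simp only [Finsupp.sum, AddSubmonoidClass.coe_finsetSum, MulMemClass.coe_mul,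
      coe_descTheta, ZeroMemClass.coe_zero] at this
    exact this
  have key := descCoeffMap_linearDisjoint b hb
    (g.mapRange (fun x : laurentBaseChange K F₀ => (x : LaurentSeries K)) rfl) (by
      rw [Finsupp.sum_mapRange_index (by intro i; simp)]
      exact h1)
  refine Finsupp.ext fun i => Subtype.ext ?_
  have := congrArg (fun f => f i) key
  simpa using this

/-- (GEN) `F'` is generated over `K'` by `θ F`. -/
theorem descTheta_adjoin_eq_top :
    IntermediateField.adjoin K' (Set.range (descTheta K K' F₀)) = ⊤ := by
  rw [eq_top_iff]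
  have aux : Subfield.closure (Set.range (algebraMap K' (LaurentSeries K')) ∪
        (⇑(coeffEmb K') '' (F₀ : Set (LaurentSeries ℚ)))) ≤
      (IntermediateField.adjoin K' (Set.range (descTheta K K' F₀))).toSubfield.map
        (laurentBaseChange K' F₀).val.toRingHom := by
    rw [Subfield.closure_le]
    rintro y (⟨a, rfl⟩ | ⟨z, hz, rfl⟩)
    · exact ⟨algebraMap K' _ a,
        (IntermediateField.adjoin K' (Set.range (descTheta K K' F₀))).algebraMap_mem a, rfl⟩
    · refine ⟨⟨coeffEmb K' z, coeffEmb_mem_laurentBaseChange K' hz⟩,
        IntermediateField.subset_adjoin K' _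
          ⟨⟨coeffEmb K z, coeffEmb_mem_laurentBaseChange K hz⟩, ?_⟩, rfl⟩
      exact descTheta_coeffEmb K K' F₀ hz
  rintro ⟨y, hy⟩ -
  obtain ⟨z, hz, hzy⟩ := aux (mem_laurentBaseChange_iff.mp hy)
  have hzy' : z = ⟨y, hy⟩ := Subtype.ext hzy
  exact hzy' ▸ hz

/-- the `K'`-combination `Ψ g = Σ e_i · θ (g_i)` -/
def descPsi {I : Type*} (b : I → K') :
    (I →₀ laurentBaseChange K F₀) →+ laurentBaseChange K' F₀ :=
  Finsupp.liftAddHom fun i =>
    (AddMonoidHom.mulLeft (algebraMap K' (laurentBaseChange K' F₀) (b i))).comp
      (descTheta K K' F₀).toAddMonoidHom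

theorem descPsi_apply {I : Type*} (b : I → K') (g : I →₀ laurentBaseChange K F₀) :
    descPsi K K' F₀ b g
      = g.sum fun i x => algebraMap K' (laurentBaseChange K' F₀) (b i) * descTheta K K' F₀ x := by
  rw [descPsi, Finsupp.liftAddHom_apply]
  rfl

theorem descPsi_const_mul_theta {I : Type*} (b : Module.Basis I K K') (c : K')
    (f : laurentBaseChange K F₀) :
    algebraMap K' (laurentBaseChange K' F₀) c * descTheta K K' F₀ f
      ∈ AddMonoidHom.mrange (descPsi K K' F₀ b) := by
  classical
  refine ⟨(b.repr c).mapRange (fun a => algebraMap K (laurentBaseChange K F₀) a * f) (by simp), ?_⟩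
  rw [descPsi_apply, Finsupp.sum_mapRange_index (by intro i; simp)]
  simp only [map_mul, descTheta_algebraMap]
  have hc : c = (b.repr c).sum fun i a => algebraMap K K' a * b i := by
    conv_lhs => rw [← b.linearCombination_repr c]
    rw [Finsupp.linearCombination_apply]
    simp only [Algebra.smul_def]
  conv_rhs => rw [hc]
  simp only [Finsupp.sum, map_sum, map_mul, Finset.sum_mul]
  refine Finset.sum_congr rfl fun i _ => ?_
  ring

theorem descPsi_surjOn_adjoin {I : Type*} (b : Module.Basis I K K')
    (z : laurentBaseChange K' F₀)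
    (hz : z ∈ Algebra.adjoin K' (Set.range (descTheta K K' F₀))) :
    z ∈ AddMonoidHom.mrange (descPsi K K' F₀ b) := by
  have h1 : (Algebra.adjoin K' (Set.range (descTheta K K' F₀))).toSubmodule
      = Submodule.span K' (Set.range (descTheta K K' F₀)) := by
    rw [Algebra.adjoin_eq_span]
    congr 1
    have : (Set.range (descTheta K K' F₀))
        = ((MonoidHom.mrange (descTheta K K' F₀).toMonoidHom : Submonoid _) : Set _) := by
      ext; simp
    rw [this, Submonoid.closure_eq]
  have hz' : z ∈ Submodule.span K' (Set.range (descTheta K K' F₀)) := by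
    rw [← h1]; exact hz
  obtain ⟨c, rfl⟩ := (Finsupp.mem_span_range_iff_exists_finsupp).mp hz'
  rw [Finsupp.sum]
  refine sum_mem fun i _ => ?_
  rw [Algebra.smul_def]
  exact descPsi_const_mul_theta K K' F₀ b _ _

/-- (RAT) an element of `F'` with all coefficients in `K` lies in `θ F`. -/
theorem descTheta_rational (x : laurentBaseChange K' F₀)
    (hx : ∀ k : ℤ, (x : LaurentSeries K').coeff k ∈ Set.range (algebraMap K K')) :
    x ∈ Set.range (descTheta K K' F₀) := by
  classical
  -- the series `y` over `K`
  have hinj : Function.Injective (algebraMap K K') := (algebraMap K K').injective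
  let y : LaurentSeries K := ⟨fun k => (hx k).choose,
    (x : LaurentSeries K').isPWO_support.mono (by
      intro k hk
      simp only [Function.mem_support, ne_eq] at hk
      rw [HahnSeries.mem_support]
      intro h0
      apply hk
      apply hinj
      rw [(hx k).choose_spec, h0, map_zero])⟩
  have hy : coeffMap (algebraMap K K') y = (x : LaurentSeries K') := by
    ext k
    exact (hx k).choose_spec
  by_cases hx0 : x = 0
  · exact ⟨0, by rw [hx0, map_zero]⟩
  -- write `x = r / s`
  have hxtop : x ∈ IntermediateField.adjoin K' (Set.range (descTheta K K' F₀)) := by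
    rw [descTheta_adjoin_eq_top]; trivial
  obtain ⟨r, hr, s, hs, hxrs⟩ := IntermediateField.mem_adjoin_iff_div.mp hxtop
  have hs0 : s ≠ 0 := by
    rintro rfl
    exact hx0 (by rw [hxrs, div_zero])
  let b := Module.Basis.ofVectorSpace K K'
  obtain ⟨α, hα⟩ := descPsi_surjOn_adjoin K K' F₀ b r hr
  obtain ⟨β, hβ⟩ := descPsi_surjOn_adjoin K K' F₀ b s hs
  have hβ0 : β ≠ 0 := by
    rintro rfl
    exact hs0 (by rw [← hβ, map_zero])
  have hmul : x * s = r := by rw [hxrs, div_mul_cancel₀ _ hs0]
  -- pass to Laurent series
  have hα' : (r : LaurentSeries K') = ∑ i ∈ α.support ∪ β.support,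
      algebraMap K' (LaurentSeries K') (b i) * coeffMap (algebraMap K K') (α i : LaurentSeries K) := by
    rw [← hα, descPsi_apply, Finsupp.sum,
      Finset.sum_subset (Finset.subset_union_left (s₂ := β.support))
        (fun i _ hi => by rw [Finsupp.notMem_support_iff.mp hi, map_zero, mul_zero])]
    simp only [AddSubmonoidClass.coe_finsetSum, MulMemClass.coe_mul, coe_descTheta]
    rfl
  have hβ' : (s : LaurentSeries K') = ∑ i ∈ α.support ∪ β.support,
      algebraMap K' (LaurentSeries K') (b i) * coeffMap (algebraMap K K') (β i : LaurentSeries K) := by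
    rw [← hβ, descPsi_apply, Finsupp.sum,
      Finset.sum_subset (Finset.subset_union_right (s₁ := α.support))
        (fun i _ hi => by rw [Finsupp.notMem_support_iff.mp hi, map_zero, mul_zero])]
    simp only [AddSubmonoidClass.coe_finsetSum, MulMemClass.coe_mul, coe_descTheta]
    rfl
  have hmul' : (x : LaurentSeries K') * (s : LaurentSeries K') = (r : LaurentSeries K') :=
    congrArg (fun z : laurentBaseChange K' F₀ => (z : LaurentSeries K')) hmul
  -- the family `y β_i - α_i`
  let g : _ →₀ LaurentSeries K := Finsupp.onFinset (α.support ∪ β.support)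
    (fun i => y * (β i : LaurentSeries K) - (α i : LaurentSeries K)) (by
      intro i hi
      by_contra hni
      rw [Finset.mem_union, not_or, Finsupp.notMem_support_iff, Finsupp.notMem_support_iff] at hni
      apply hi
      rw [hni.1, hni.2]
      simp)
  have hg : g = 0 := by
    apply descCoeffMap_linearDisjoint (⇑b) b.linearIndependent g
    rw [Finsupp.onFinset_sum _ (by intro i; simp)]
    simp only [map_sub, map_mul, hy, mul_sub, Finset.sum_sub_distrib]
    rw [← hα', ← hmul', hβ', Finset.mul_sum, sub_eq_zero]
    refine Finset.sum_congr rfl fun i _ => ?_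
    ring
  obtain ⟨i, hi⟩ : ∃ i, β i ≠ 0 := by
    by_contra hcon
    push_neg at hcon
    exact hβ0 (Finsupp.ext hcon)
  have hgi : y * (β i : LaurentSeries K) - (α i : LaurentSeries K) = 0 := by
    have := congrArg (fun f => f i) hg
    simpa [g] using this
  have hβi : (β i : LaurentSeries K) ≠ 0 := fun h => hi (Subtype.ext h)
  have hyeq : y = (α i : LaurentSeries K) * (β i : LaurentSeries K)⁻¹ := by
    rw [eq_mul_inv_iff_mul_eq₀ hβi]
    exact sub_eq_zero.mp hgi
  have hymem : y ∈ laurentBaseChange K F₀ := by
    rw [hyeq]
    exact mul_mem (α i).2 (inv_mem (β i).2)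
  exact ⟨⟨y, hymem⟩, Subtype.ext hy⟩

end Theta

end Fermat.Agent.F3I2
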