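/-
Cluster A (F3), piece A3e (descent ℂ → ℚ̄): FINAL PACKAGE (helper82; place theory by helper25,
`Aut(ℂ/ℚ̄)` and canonical representatives by helper89).

For `K = ℚ̄ = AlgebraicClosure ℚ`, `K' = ℂ`, `F₀ = modularFunctionFieldFull N`:
* `descQbarC : ℚ̄ →ₐ[ℚ] ℂ` a fixed embedding, `descAlgebraQbarC` the algebra structure (use `letI`);
* `descThetaQC N : F_ℚ̄(N) →+* F_ℂ(N)` the coefficientwise embedding;
* `descBcDivQC N hQ : Divisor ℚ̄ F_ℚ̄ →+ Divisor ℂ F_ℂ`, `descBcQC N hQ hC : JZero N →+ Pic0 ℂ F_ℂ`;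
* `descBcQC_mk`, `descBcDivQC_principal`, `descBcQC_injective`, `descBcQC_surjective_torsion`.
Hypotheses: `hQ : IsRRField ℚ̄ F_ℚ̄(N)`, `hC : IsRRField ℂ F_ℂ(N)` (Lib/RR), and finiteness of the
`n`-torsion of `Pic0 ℂ F_ℂ(N)` for the surjectivity.
-/
import Mathlib
import Fermat.Prelude.Def_ModularCurve_ArithmeticGalois
import Fermat.Agent.F3.I2.Descent.Main
import Fermat.Agent.Lib.ConstExt.DescInst

set_option autoImplicit false

noncomputable section

namespace Fermat.Agent.F3I2

open ModularCurve HahnSeries AlgebraicCurve Fermat.Agent.RR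

/-- a fixed embedding of `ℚ̄` in `ℂ`. -/
def descQbarC : AlgebraicClosure ℚ →ₐ[ℚ] ℂ :=
  haveI : Algebra.IsAlgebraic ℚ (AlgebraicClosure ℚ) := AlgebraicClosure.isAlgebraic ℚ
  IsAlgClosed.lift

/-- the algebra structure `ℚ̄ → ℂ` given by `descQbarC` (not an instance: use `letI`). -/
@[reducible] def descAlgebraQbarC : Algebra (AlgebraicClosure ℚ) ℂ :=
  descQbarC.toRingHom.toAlgebra

variable (N : ℕ)

/-- the coefficientwise embedding `θ : F_ℚ̄(N) → F_ℂ(N)`. -/
def descThetaQC : modularFunctionFieldBar N →+* laurentBaseChange ℂ (modularFunctionFieldFull N) :=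
  letI := descAlgebraQbarC
  descTheta (AlgebraicClosure ℚ) ℂ (modularFunctionFieldFull N)

theorem coe_descThetaQC_coeff (x : modularFunctionFieldBar N) (k : ℤ) :
    ((descThetaQC N x : laurentBaseChange ℂ (modularFunctionFieldFull N)) :
        LaurentSeries ℂ).coeff k
      = descQbarC ((x : LaurentSeries (AlgebraicClosure ℚ)).coeff k) :=
  rfl

theorem descThetaQC_injective : Function.Injective (descThetaQC N) :=
  (descThetaQC N).injective

theorem descThetaQC_algebraMap (a : AlgebraicClosure ℚ) :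
    descThetaQC N (algebraMap (AlgebraicClosure ℚ) (modularFunctionFieldBar N) a)
      = algebraMap ℂ (laurentBaseChange ℂ (modularFunctionFieldFull N)) (descQbarC a) :=
  letI := descAlgebraQbarC
  descTheta_algebraMap (AlgebraicClosure ℚ) ℂ (modularFunctionFieldFull N) a

/-- (RAT) an element of `F_ℂ(N)` with all coefficients in `ℚ̄` comes from `F_ℚ̄(N)`. -/
theorem descThetaQC_rational (x : laurentBaseChange ℂ (modularFunctionFieldFull N))
    (hx : ∀ k : ℤ, (x : LaurentSeries ℂ).coeff k ∈ Set.range descQbarC) :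
    x ∈ Set.range (descThetaQC N) :=
  letI := descAlgebraQbarC
  descTheta_rational (AlgebraicClosure ℚ) ℂ (modularFunctionFieldFull N) x hx

variable {N}

/-- the place extension data for `ℚ̄ ⊂ ℂ`. -/
def descPlacesQC (hQ : IsRRField (AlgebraicClosure ℚ) (modularFunctionFieldBar N)) :
    @DescPlaces (AlgebraicClosure ℚ) ℂ _ _ _ _ descAlgebraQbarC (modularFunctionFieldFull N) :=
  letI := descAlgebraQbarC
  Fermat.Agent.ConstExt.descPlacesOfRR (AlgebraicClosure ℚ) ℂ (modularFunctionFieldFull N) hQ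

/-- the extension of a place of `F_ℚ̄(N)` to `F_ℂ(N)`. -/
def descExtQC (hQ : IsRRField (AlgebraicClosure ℚ) (modularFunctionFieldBar N))
    (v : Place (AlgebraicClosure ℚ) (modularFunctionFieldBar N)) :
    Place ℂ (laurentBaseChange ℂ (modularFunctionFieldFull N)) :=
  letI := descAlgebraQbarC
  (descPlacesQC hQ).ext v

theorem descExtQC_injective (hQ : IsRRField (AlgebraicClosure ℚ) (modularFunctionFieldBar N)) :
    Function.Injective (descExtQC hQ) :=
  letI := descAlgebraQbarC
  (descPlacesQC hQ).ext_injective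

theorem ord_descExtQC (hQ : IsRRField (AlgebraicClosure ℚ) (modularFunctionFieldBar N))
    (v : Place (AlgebraicClosure ℚ) (modularFunctionFieldBar N)) (f : modularFunctionFieldBar N) :
    (descExtQC hQ v).ord (descThetaQC N f) = v.ord f :=
  letI := descAlgebraQbarC
  (descPlacesQC hQ).ord_ext v f

theorem descExtQC_dich (hQ : IsRRField (AlgebraicClosure ℚ) (modularFunctionFieldBar N))
    (w : Place ℂ (laurentBaseChange ℂ (modularFunctionFieldFull N))) :
    (∃ v, descExtQC hQ v = w) ∨ (∀ f : modularFunctionFieldBar N, w.ord (descThetaQC N f) = 0) :=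
  letI := descAlgebraQbarC
  (descPlacesQC hQ).dich w

/-- base change of divisors `ℚ̄ → ℂ`. -/
def descBcDivQC (hQ : IsRRField (AlgebraicClosure ℚ) (modularFunctionFieldBar N)) :
    Divisor (AlgebraicClosure ℚ) (modularFunctionFieldBar N) →+
      Divisor ℂ (laurentBaseChange ℂ (modularFunctionFieldFull N)) :=
  letI := descAlgebraQbarC
  (descPlacesQC hQ).bcDiv

theorem descBcDivQC_single (hQ : IsRRField (AlgebraicClosure ℚ) (modularFunctionFieldBar N))
    (v : Place (AlgebraicClosure ℚ) (modularFunctionFieldBar N)) (n : ℤ) :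
    descBcDivQC hQ (Finsupp.single v n) = Finsupp.single (descExtQC hQ v) n :=
  letI := descAlgebraQbarC
  (descPlacesQC hQ).bcDiv_single v n

theorem descBcDivQC_apply_ext (hQ : IsRRField (AlgebraicClosure ℚ) (modularFunctionFieldBar N))
    (D : Divisor (AlgebraicClosure ℚ) (modularFunctionFieldBar N))
    (v : Place (AlgebraicClosure ℚ) (modularFunctionFieldBar N)) :
    descBcDivQC hQ D (descExtQC hQ v) = D v :=
  letI := descAlgebraQbarC
  (descPlacesQC hQ).bcDiv_apply_ext D v

theorem descBcDivQC_injective (hQ : IsRRField (AlgebraicClosure ℚ) (modularFunctionFieldBar N)) :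
    Function.Injective (descBcDivQC hQ) :=
  letI := descAlgebraQbarC
  (descPlacesQC hQ).bcDiv_injective

/-- `bcDiv (div f) = div (θ f)`. -/
theorem descBcDivQC_principal (hQ : IsRRField (AlgebraicClosure ℚ) (modularFunctionFieldBar N))
    (D : Divisor (AlgebraicClosure ℚ) (modularFunctionFieldBar N)) (f : modularFunctionFieldBar N)
    (hD : ∀ v, D v = v.ord f) (w : Place ℂ (laurentBaseChange ℂ (modularFunctionFieldFull N))) :
    descBcDivQC hQ D w = w.ord (descThetaQC N f) :=
  letI := descAlgebraQbarC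
  (descPlacesQC hQ).bcDiv_principal D f hD w

theorem degree_descBcDivQC (hQ : IsRRField (AlgebraicClosure ℚ) (modularFunctionFieldBar N))
    (hC : IsRRField ℂ (laurentBaseChange ℂ (modularFunctionFieldFull N)))
    (D : Divisor (AlgebraicClosure ℚ) (modularFunctionFieldBar N)) :
    Divisor.degree (descBcDivQC hQ D) = Divisor.degree D :=
  letI := descAlgebraQbarC
  (descPlacesQC hQ).degree_bcDiv hQ hC D

/-- **the base change** `JZero N = Pic0 (F_ℚ̄(N)) →+ Pic0 (F_ℂ(N))`. -/
def descBcQC (hQ : IsRRField (AlgebraicClosure ℚ) (modularFunctionFieldBar N))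
    (hC : IsRRField ℂ (laurentBaseChange ℂ (modularFunctionFieldFull N))) :
    JZero N →+ Pic0 ℂ (laurentBaseChange ℂ (modularFunctionFieldFull N)) :=
  letI := descAlgebraQbarC
  (descPlacesQC hQ).bc hQ hC

theorem descBcQC_mk (hQ : IsRRField (AlgebraicClosure ℚ) (modularFunctionFieldBar N))
    (hC : IsRRField ℂ (laurentBaseChange ℂ (modularFunctionFieldFull N)))
    (D : Divisor.degZero (K := AlgebraicClosure ℚ) (F := modularFunctionFieldBar N)) :
    descBcQC hQ hC (Pic0.mk D)
      = Pic0.mk ⟨descBcDivQC hQ (D : Divisor _ _), by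
          rw [Divisor.mem_degZero, degree_descBcDivQC hQ hC]; exact D.2⟩ :=
  rfl

/-- **`bc` is injective.** -/
theorem descBcQC_injective (hQ : IsRRField (AlgebraicClosure ℚ) (modularFunctionFieldBar N))
    (hC : IsRRField ℂ (laurentBaseChange ℂ (modularFunctionFieldFull N))) :
    Function.Injective (descBcQC hQ hC) :=
  letI := descAlgebraQbarC
  (descPlacesQC hQ).bc_injective hQ hC

/-- **`bc` is onto the `n`-torsion** as soon as the `n`-torsion over `ℂ` is finite. -/
theorem descBcQC_surjective_torsion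
    (hQ : IsRRField (AlgebraicClosure ℚ) (modularFunctionFieldBar N))
    (hC : IsRRField ℂ (laurentBaseChange ℂ (modularFunctionFieldFull N)))
    (n : ℕ) (hn : 0 < n)
    (hfin : {c : Pic0 ℂ (laurentBaseChange ℂ (modularFunctionFieldFull N)) | n • c = 0}.Finite)
    (x' : Pic0 ℂ (laurentBaseChange ℂ (modularFunctionFieldFull N))) (hx' : n • x' = 0) :
    ∃ x : JZero N, descBcQC hQ hC x = x' ∧ n • x = 0 :=
  letI := descAlgebraQbarC
  (descPlacesQC hQ).bc_surjective_torsion hQ hC n hn hfin x' hx'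

end Fermat.Agent.F3I2
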