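/-
Cluster A (F3), piece A3e (descent ℂ → ℚ̄), helper82.

**Hecke-equivariance of the base change.**  Two levels `F₁ ⊂ F₂` (function fields of `X₀(N)` and
`X₀(Nℓ)`), place extension data `P₁`, `P₂` at both levels, `φ : F₁ → F₂` over `K` and
`φ' : F₁' → F₂'` over `K'` compatible with `θ`.  Then base change of divisors commutes with
`pullbackAlong` and `pushforwardAlong`, hence with correspondences, hence with
`heckeOperatorAlong`.
-/
import Mathlib
import Fermat.Agent.F3.I2.Descent.Main
import Fermat.Prelude.Def_ModularCurve_HeckeOperatorTotal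
import Fermat.Prelude.Thm_ModularCurve_coeffMap_qExpand

set_option autoImplicit false

noncomputable section

namespace Fermat.Agent.F3I2

open ModularCurve HahnSeries AlgebraicCurve Fermat.Agent.RR

section AlongAux

variable {K F F' : Type*} [Field K] [Field F] [Field F'] [Algebra K F] [Algebra K F']

theorem descRamAlong_pos (φ : F →ₐ[K] F') (hφ : φ.toRingHom.IsIntegral) (w : Place K F') :
    0 < w.ramificationIndexAlong φ := by
  letI := algebraAlong φ
  haveI := isScalarTower_along φ
  haveI := isIntegral_along φ hφ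
  exact w.ramificationIndex_pos (F := F)

theorem descInertiaAlong_eq_one (φ : F →ₐ[K] F') (hφ : φ.toRingHom.IsIntegral) (w : Place K F')
    (h1 : ∀ v : Place K F, v.deg = 1) (h2 : w.deg = 1) : w.inertiaDegAlong φ hφ = 1 := by
  letI := algebraAlong φ
  haveI := isScalarTower_along φ
  haveI := isIntegral_along φ hφ
  have h := w.deg_restrict_mul_inertiaDeg (F := F)
  rw [h1, h2, one_mul] at h
  exact h

end AlongAux

variable {K K' : Type*} [Field K] [Field K'] [Algebra ℚ K] [Algebra ℚ K'] [Algebra K K']
variable {F₁ F₂ : IntermediateField ℚ (LaurentSeries ℚ)}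

namespace DescPlaces

variable (P₁ : DescPlaces K K' F₁) (P₂ : DescPlaces K K' F₂)
variable (φ : laurentBaseChange K F₁ →ₐ[K] laurentBaseChange K F₂)
variable (φ' : laurentBaseChange K' F₁ →ₐ[K'] laurentBaseChange K' F₂)
variable (hφ : φ.toRingHom.IsIntegral) (hφ' : φ'.toRingHom.IsIntegral)
variable (hcomm : ∀ f, descTheta K K' F₂ (φ f) = φ' (descTheta K K' F₁ f))

include hcomm in
theorem ord_along_eq (u : Place K (laurentBaseChange K F₂)) (f : laurentBaseChange K F₁) :
    ((P₂.ext u).ramificationIndexAlong φ' : ℤ)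
        * ((P₂.ext u).restrictAlong φ' hφ').ord (descTheta K K' F₁ f)
      = (u.ramificationIndexAlong φ : ℤ) * (u.restrictAlong φ hφ).ord f := by
  rw [← Place.ord_restrictAlong φ' hφ', ← Place.ord_restrictAlong φ hφ, ← hcomm, P₂.ord_ext]

include hcomm in
/-- restriction and ramification index are compatible with the extension of places. -/
theorem restrictAlong_ext (u : Place K (laurentBaseChange K F₂)) :
    (P₂.ext u).restrictAlong φ' hφ' = P₁.ext (u.restrictAlong φ hφ) ∧
      (P₂.ext u).ramificationIndexAlong φ' = u.ramificationIndexAlong φ := by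
  have key := P₂.ord_along_eq φ φ' hφ hφ' hcomm u
  have he' : (0 : ℤ) < ((P₂.ext u).ramificationIndexAlong φ' : ℤ) := by
    exact_mod_cast descRamAlong_pos φ' hφ' (P₂.ext u)
  have he : (0 : ℤ) < (u.ramificationIndexAlong φ : ℤ) := by
    exact_mod_cast descRamAlong_pos φ hφ u
  set e' : ℤ := ((P₂.ext u).ramificationIndexAlong φ' : ℤ) with he'def
  set e : ℤ := (u.ramificationIndexAlong φ : ℤ) with hedef
  set v := u.restrictAlong φ hφ with hv
  obtain ⟨t, ht⟩ := Fermat.Agent.RR.exists_uniformizer v
  rcases P₁.dich ((P₂.ext u).restrictAlong φ' hφ') with ⟨v₁, hv₁⟩ | h0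
  · rw [← hv₁] at key
    simp only [P₁.ord_ext] at key
    obtain ⟨t₁, ht₁⟩ := Fermat.Agent.RR.exists_uniformizer v₁
    have ha := key t₁
    have hb := key t
    rw [ht₁, mul_one] at ha
    rw [ht, mul_one] at hb
    -- e' = e * a, e' * b = e
    have hab : v.ord t₁ * v₁.ord t = 1 := by
      have h1 : e' * (v.ord t₁ * v₁.ord t) = e' * 1 := by
        calc e' * (v.ord t₁ * v₁.ord t) = (e' * v₁.ord t) * v.ord t₁ := by ring
          _ = e * v.ord t₁ := by rw [hb]
          _ = e' * 1 := by rw [← ha, mul_one]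
      exact mul_left_cancel₀ he'.ne' h1
    have hapos : 0 < v.ord t₁ := by
      by_contra hneg
      push_neg at hneg
      have : e * v.ord t₁ ≤ 0 := mul_nonpos_of_nonneg_of_nonpos he.le hneg
      omega
    have ha1 : v.ord t₁ = 1 := by
      rcases Int.eq_one_or_neg_one_of_mul_eq_one hab with h | h
      · exact h
      · omega
    have hee : e' = e := by rw [ha, ha1, mul_one]
    have hvv : v₁ = v := by
      refine descPlace_eq_of_ord fun f => ?_
      have := key f
      rw [hee] at this
      exact mul_left_cancel₀ he.ne' this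
    refine ⟨by rw [← hv₁, hvv], ?_⟩
    rw [he'def, hedef] at hee
    exact_mod_cast hee
  · exfalso
    have := key t
    rw [h0 t, ht, mul_zero, mul_one] at this
    omega

include hcomm in
/-- a place of `F₂'` which is not an extension place does not restrict to an extension place. -/
theorem restrictAlong_not_ext (w' : Place K' (laurentBaseChange K' F₂))
    (hw' : ∀ u, P₂.ext u ≠ w') (v : Place K (laurentBaseChange K F₁)) :
    P₁.ext v ≠ w'.restrictAlong φ' hφ' := by
  intro hv
  rcases P₂.dich w' with ⟨u, hu⟩ | h0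
  · exact hw' u hu
  · obtain ⟨t, ht⟩ := Fermat.Agent.RR.exists_uniformizer v
    have h1 := Place.ord_restrictAlong φ' hφ' w' (descTheta K K' F₁ t)
    rw [← hcomm, h0, ← hv, P₁.ord_ext, ht, mul_one] at h1
    have he' : (0 : ℤ) < (w'.ramificationIndexAlong φ' : ℤ) := by
      exact_mod_cast descRamAlong_pos φ' hφ' w'
    omega

include hcomm in
/-- base change commutes with pullback. -/
theorem bcDiv_pullbackAlong [HasPrincipalDivisors K (laurentBaseChange K F₂)]
    [HasPrincipalDivisors K' (laurentBaseChange K' F₂)]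
    (D : Divisor K (laurentBaseChange K F₁)) :
    P₂.bcDiv (Divisor.pullbackAlong φ hφ D) = Divisor.pullbackAlong φ' hφ' (P₁.bcDiv D) := by
  refine Finsupp.ext fun w' => ?_
  rw [Divisor.pullbackAlong_apply]
  by_cases hw : ∃ u, P₂.ext u = w'
  · obtain ⟨u, rfl⟩ := hw
    obtain ⟨h1, h2⟩ := P₁.restrictAlong_ext P₂ φ φ' hφ hφ' hcomm u
    rw [P₂.bcDiv_apply_ext, Divisor.pullbackAlong_apply, h1, h2, P₁.bcDiv_apply_ext]
  · rw [not_exists] at hw
    rw [P₂.bcDiv_apply_of_not _ w' hw,
      P₁.bcDiv_apply_of_not D _ (P₁.restrictAlong_not_ext P₂ φ φ' hφ' hcomm w' hw), mul_zero]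

include hcomm in
/-- base change commutes with pushforward. -/
theorem bcDiv_pushforwardAlong
    (hK₁ : ∀ v : Place K (laurentBaseChange K F₁), v.deg = 1)
    (hK₂ : ∀ v : Place K (laurentBaseChange K F₂), v.deg = 1)
    (hK₁' : ∀ v : Place K' (laurentBaseChange K' F₁), v.deg = 1)
    (hK₂' : ∀ v : Place K' (laurentBaseChange K' F₂), v.deg = 1)
    (D : Divisor K (laurentBaseChange K F₂)) :
    P₁.bcDiv (Divisor.pushforwardAlong φ hφ D) = Divisor.pushforwardAlong φ' hφ' (P₂.bcDiv D) := by
  induction D using Finsupp.induction with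
  | zero => simp
  | single_add u n D _ _ ih =>
      rw [map_add, map_add, map_add, map_add, ih]
      congr 1
      obtain ⟨h1, -⟩ := P₁.restrictAlong_ext P₂ φ φ' hφ hφ' hcomm u
      rw [Divisor.pushforwardAlong_single, bcDiv_single, bcDiv_single,
        Divisor.pushforwardAlong_single, h1, descInertiaAlong_eq_one φ hφ u hK₁ (hK₂ u),
        descInertiaAlong_eq_one φ' hφ' (P₂.ext u) hK₁' (hK₂' _)]

end DescPlaces

end Fermat.Agent.F3I2
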