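/-
Cluster A (F3), piece A3e (descent ℂ → ℚ̄), D6 at the level of `Pic0` (helper82).

`bc` commutes with correspondences, in particular with the Hecke operators
`heckeOperatorAlong K N ℓ` and `heckeOperatorAlong K' N ℓ` (for ALL classes, not only torsion).
-/
import Mathlib
import Fermat.Agent.F3.I2.Descent.Hecke

set_option autoImplicit false

noncomputable section

namespace Fermat.Agent.F3I2

open ModularCurve HahnSeries AlgebraicCurve Fermat.Agent.RR

variable {K K' : Type*} [Field K] [Field K'] [Algebra ℚ K] [Algebra ℚ K'] [Algebra K K']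

namespace DescPlaces

section Generic

variable {F₁ F₂ : IntermediateField ℚ (LaurentSeries ℚ)}
variable (P₁ : DescPlaces K K' F₁) (P₂ : DescPlaces K K' F₂)
variable (φ ψ : laurentBaseChange K F₁ →ₐ[K] laurentBaseChange K F₂)
variable (φ' ψ' : laurentBaseChange K' F₁ →ₐ[K'] laurentBaseChange K' F₂)
variable (hφ : φ.toRingHom.IsIntegral) (hφ' : φ'.toRingHom.IsIntegral)
variable (hψ : ψ.toRingHom.IsIntegral) (hψ' : ψ'.toRingHom.IsIntegral)
variable (hcφ : ∀ f, descTheta K K' F₂ (φ f) = φ' (descTheta K K' F₁ f))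
variable (hcψ : ∀ f, descTheta K K' F₂ (ψ f) = ψ' (descTheta K K' F₁ f))

include P₂ hcφ hcψ in
/-- base change commutes with correspondences (divisors). -/
theorem bcDiv_correspondence [HasPrincipalDivisors K (laurentBaseChange K F₂)]
    [HasPrincipalDivisors K' (laurentBaseChange K' F₂)]
    (hK₁ : ∀ v : Place K (laurentBaseChange K F₁), v.deg = 1)
    (hK₂ : ∀ v : Place K (laurentBaseChange K F₂), v.deg = 1)
    (hK₁' : ∀ v : Place K' (laurentBaseChange K' F₁), v.deg = 1)
    (hK₂' : ∀ v : Place K' (laurentBaseChange K' F₂), v.deg = 1)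
    (D : Divisor K (laurentBaseChange K F₁)) :
    P₁.bcDiv (Divisor.correspondence φ ψ hφ hψ D)
      = Divisor.correspondence φ' ψ' hφ' hψ' (P₁.bcDiv D) := by
  rw [Divisor.correspondence_apply, Divisor.correspondence_apply,
    P₁.bcDiv_pushforwardAlong P₂ ψ ψ' hψ hψ' hcψ hK₁ hK₂ hK₁' hK₂',
    P₁.bcDiv_pullbackAlong P₂ φ φ' hφ hφ' hcφ]

include P₂ hcφ hcψ in
/-- base change commutes with correspondences (classes). -/
theorem bc_correspondence [HasPrincipalDivisors K (laurentBaseChange K F₂)]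
    [HasPrincipalDivisors K' (laurentBaseChange K' F₂)]
    (hK₁ : IsRRField K (laurentBaseChange K F₁))
    (hK₁' : IsRRField K' (laurentBaseChange K' F₁))
    (hK₂ : ∀ v : Place K (laurentBaseChange K F₂), v.deg = 1)
    (hK₂' : ∀ v : Place K' (laurentBaseChange K' F₂), v.deg = 1)
    (hFI : FundamentalIdentityAlong K φ hφ) (hfin : FiniteAlong K ψ)
    (hN : NormFormulaAlong K ψ hfin)
    (hFI' : FundamentalIdentityAlong K' φ' hφ') (hfin' : FiniteAlong K' ψ')
    (hN' : NormFormulaAlong K' ψ' hfin')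
    (x : Pic0 K (laurentBaseChange K F₁)) :
    P₁.bc hK₁ hK₁' (Pic0.correspondence φ ψ hφ hψ hFI hfin hN x)
      = Pic0.correspondence φ' ψ' hφ' hψ' hFI' hfin' hN' (P₁.bc hK₁ hK₁' x) := by
  obtain ⟨D, rfl⟩ := Pic0.mk_surjective x
  rw [Pic0.correspondence_mk, bc_mk, bc_mk, Pic0.correspondence_mk]
  congr 1
  apply Subtype.ext
  simp only [coe_bcDegZero, Pic0.coe_degZeroCorrespondence]
  exact P₁.bcDiv_correspondence P₂ φ ψ φ' ψ' hφ hφ' hψ hψ' hcφ hcψ hK₁.deg_one hK₂ hK₁'.deg_one
    hK₂' _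

end Generic

section Hecke

variable (N ℓ : ℕ) [NeZero N] [NeZero ℓ]

theorem descTheta_heckeAlphaBar (f : laurentBaseChange K (modularFunctionFieldFull N)) :
    descTheta K K' (modularFunctionFieldFull (N * ℓ)) (heckeAlphaBar K N ℓ f)
      = heckeAlphaBar K' N ℓ (descTheta K K' (modularFunctionFieldFull N) f) := by
  apply Subtype.ext
  simp only [coe_descTheta, coe_heckeAlphaBar]

omit [NeZero N] in
theorem descTheta_heckeBetaBar (f : laurentBaseChange K (modularFunctionFieldFull N)) :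
    descTheta K K' (modularFunctionFieldFull (N * ℓ)) (heckeBetaBar K N ℓ f)
      = heckeBetaBar K' N ℓ (descTheta K K' (modularFunctionFieldFull N) f) := by
  apply Subtype.ext
  simp only [coe_descTheta, coe_heckeBetaBar]
  exact ModularCurve.coeffMap_qExpand _ ℓ _

/-- **`bc` commutes with the Hecke operator `T_ℓ`.** -/
theorem bc_heckeOperatorAlong
    (P₁ : DescPlaces K K' (modularFunctionFieldFull N))
    (P₂ : DescPlaces K K' (modularFunctionFieldFull (N * ℓ)))
    (hK₁ : IsRRField K (laurentBaseChange K (modularFunctionFieldFull N)))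
    (hK₁' : IsRRField K' (laurentBaseChange K' (modularFunctionFieldFull N)))
    (hK₂ : ∀ v : Place K (laurentBaseChange K (modularFunctionFieldFull (N * ℓ))), v.deg = 1)
    (hK₂' : ∀ v : Place K' (laurentBaseChange K' (modularFunctionFieldFull (N * ℓ))), v.deg = 1)
    (hH : HeckeInputsAlong K N ℓ) (hH' : HeckeInputsAlong K' N ℓ)
    (x : Pic0 K (laurentBaseChange K (modularFunctionFieldFull N))) :
    P₁.bc hK₁ hK₁' (heckeOperatorAlong K N ℓ x)
      = heckeOperatorAlong K' N ℓ (P₁.bc hK₁ hK₁' x) := by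
  obtain ⟨hα, hβ, hP, hfin, hFI, hN⟩ := hH
  obtain ⟨hα', hβ', hP', hfin', hFI', hN'⟩ := hH'
  rw [heckeOperatorAlong_eq hα hβ hFI hfin hN, heckeOperatorAlong_eq hα' hβ' hFI' hfin' hN']
  exact P₁.bc_correspondence P₂ (heckeBetaBar K N ℓ) (heckeAlphaBar K N ℓ)
    (heckeBetaBar K' N ℓ) (heckeAlphaBar K' N ℓ) hβ hβ' hα hα'
    (descTheta_heckeBetaBar N ℓ) (descTheta_heckeAlphaBar N ℓ) hK₁ hK₁' hK₂ hK₂'
    hFI hfin hN hFI' hfin' hN' x

end Hecke

end DescPlaces

end Fermat.Agent.F3I2
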