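/-
Cluster A (F3), piece A3e (descent ℂ → ℚ̄): UNCONDITIONAL form (helper82).

Inputs: `RRMod.isRRField_bar` (Lib/RR + S24), `F3Dict.isFunctionFieldOver_jBar` (DictC, over `ℂ`),
`F3TF.finite_torsion_FC` (helper11).  Outputs, for every `N ≠ 0`:
* `descIsRRField_FC N : IsRRField ℂ (FC N)`;
* `descBc N : JZero N →+ Pic0 ℂ (FC N)`, `descBc_mk`, `descBc_injective`,
  `descBc_surjective_torsion`, `descBcDiv N`, `descBcDiv_principal`.
-/
import Mathlib
import Fermat.Agent.F3.I2.Descent.Final
import Fermat.Agent.Lib.RR.OfModularBar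
import Fermat.Agent.F3.DictC.GlobalDatum
import Fermat.Agent.F3.TorsFin.CharFinite
import Fermat.Agent.F3.I2.Descent.HeckeBc
import Fermat.Agent.Lib.HeckeInputs.Qbar
import Fermat.Agent.Lib.HeckeInputs.Complex

set_option autoImplicit false

noncomputable section

namespace Fermat.Agent.F3I2

open ModularCurve HahnSeries AlgebraicCurve Fermat.Agent.RR

variable (N : ℕ) [NeZero N]

set_option synthInstance.maxHeartbeats 400000 in
/-- the Riemann-Roch library applies to the function field of `X₀(N)` over `ℂ`. -/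
theorem descIsRRField_FC :
    IsRRField ℂ (laurentBaseChange ℂ (modularFunctionFieldFull N)) :=
  Fermat.Agent.RR.isRRField_of_charZero (Fermat.Agent.F3Dict.isFunctionFieldOver_jBar N)

/-- base change of divisors `ℚ̄ → ℂ`. -/
def descBcDiv : Divisor (AlgebraicClosure ℚ) (modularFunctionFieldBar N) →+
    Divisor ℂ (laurentBaseChange ℂ (modularFunctionFieldFull N)) :=
  descBcDivQC (Fermat.Agent.RRMod.isRRField_bar N)

/-- the extension of places `ℚ̄ → ℂ`. -/
def descExt (v : Place (AlgebraicClosure ℚ) (modularFunctionFieldBar N)) :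
    Place ℂ (laurentBaseChange ℂ (modularFunctionFieldFull N)) :=
  descExtQC (Fermat.Agent.RRMod.isRRField_bar N) v

theorem ord_descExt (v : Place (AlgebraicClosure ℚ) (modularFunctionFieldBar N))
    (f : modularFunctionFieldBar N) : (descExt N v).ord (descThetaQC N f) = v.ord f :=
  ord_descExtQC _ v f

theorem descBcDiv_single (v : Place (AlgebraicClosure ℚ) (modularFunctionFieldBar N)) (n : ℤ) :
    descBcDiv N (Finsupp.single v n) = Finsupp.single (descExt N v) n :=
  descBcDivQC_single _ v n

theorem descBcDiv_principal (D : Divisor (AlgebraicClosure ℚ) (modularFunctionFieldBar N))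
    (f : modularFunctionFieldBar N) (hD : ∀ v, D v = v.ord f)
    (w : Place ℂ (laurentBaseChange ℂ (modularFunctionFieldFull N))) :
    descBcDiv N D w = w.ord (descThetaQC N f) :=
  descBcDivQC_principal _ D f hD w

theorem degree_descBcDiv (D : Divisor (AlgebraicClosure ℚ) (modularFunctionFieldBar N)) :
    Divisor.degree (descBcDiv N D) = Divisor.degree D :=
  degree_descBcDivQC _ (descIsRRField_FC N) D

/-- **the base change** `JZero N →+ Pic0 ℂ (FC N)`. -/
def descBc : JZero N →+ Pic0 ℂ (laurentBaseChange ℂ (modularFunctionFieldFull N)) :=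
  descBcQC (Fermat.Agent.RRMod.isRRField_bar N) (descIsRRField_FC N)

theorem descBc_mk (D : Divisor.degZero (K := AlgebraicClosure ℚ) (F := modularFunctionFieldBar N)) :
    descBc N (Pic0.mk D)
      = Pic0.mk ⟨descBcDiv N (D : Divisor _ _), by
          rw [Divisor.mem_degZero, degree_descBcDiv]; exact D.2⟩ :=
  rfl

/-- **`bc` is injective.** -/
theorem descBc_injective : Function.Injective (descBc N) :=
  descBcQC_injective _ _

/-- **`bc` is onto the torsion.** -/
theorem descBc_surjective_torsion (n : ℕ) (hn : 0 < n)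
    (x' : Pic0 ℂ (laurentBaseChange ℂ (modularFunctionFieldFull N))) (hx' : n • x' = 0) :
    ∃ x : JZero N, descBc N x = x' ∧ n • x = 0 :=
  descBcQC_surjective_torsion _ _ n hn (Fermat.Agent.F3TF.finite_torsion_FC hn.ne') x' hx'

/-- the inverse of `bc` on the `n`-torsion, as a map. -/
theorem descBc_existsUnique_torsion (n : ℕ) (hn : 0 < n)
    (x' : Pic0 ℂ (laurentBaseChange ℂ (modularFunctionFieldFull N))) (hx' : n • x' = 0) :
    ∃! x : JZero N, descBc N x = x' := by
  obtain ⟨x, hx, -⟩ := descBc_surjective_torsion N n hn x' hx'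
  exact ⟨x, hx, fun y hy => descBc_injective N (hy.trans hx.symm)⟩

/-- finiteness of the `n`-torsion of `JZero N` (a consequence of the finiteness over `ℂ`). -/
theorem descFinite_torsion_JZero (n : ℕ) (hn : n ≠ 0) : {x : JZero N | n • x = 0}.Finite := by
  refine Set.Finite.of_finite_image (f := descBc N) ?_ (descBc_injective N).injOn
  refine (Fermat.Agent.F3TF.finite_torsion_FC (N := N) hn).subset ?_
  rintro _ ⟨x, hx, rfl⟩
  show n • descBc N x = 0
  rw [← map_nsmul, show n • x = 0 from hx, map_zero]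

/-- **`bc` commutes with the Hecke operators** (all `ℓ`, all classes). -/
theorem descBc_hecke (ℓ : ℕ) [NeZero ℓ] (x : JZero N) :
    descBc N (heckeOperatorAlong (AlgebraicClosure ℚ) N ℓ x)
      = heckeOperatorAlong ℂ N ℓ (descBc N x) := by
  letI := descAlgebraQbarC
  haveI : NeZero (N * ℓ) := ⟨Nat.mul_ne_zero (NeZero.ne N) (NeZero.ne ℓ)⟩
  exact DescPlaces.bc_heckeOperatorAlong N ℓ
    (descPlacesQC (Fermat.Agent.RRMod.isRRField_bar N))
    (descPlacesQC (Fermat.Agent.RRMod.isRRField_bar (N * ℓ)))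
    (Fermat.Agent.RRMod.isRRField_bar N) (descIsRRField_FC N)
    (Fermat.Agent.RRMod.isRRField_bar (N * ℓ)).deg_one (descIsRRField_FC (N * ℓ)).deg_one
    (Fermat.Agent.HeckeInputs.hi_heckeInputsAlong_Qbar N ℓ)
    (Fermat.Agent.HeckeInputs.hi_heckeInputsAlong_complex N ℓ) x

end Fermat.Agent.F3I2
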