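/-
Cluster A / F3-I2, piece A3e D0 (helper89, for helper82's descent `ℂ → ℚ̄`).

`K ⊆ K'` algebraically closed fields of characteristic `0`.  Every `z ∈ K' ∖ K` is moved by the
automorphisms of `K'` over `K`: for every `n` there is an automorphism with `σ z = z + n`.
Hence an element with finite orbit lies in `K`.

Proof: extend `{z}` to a transcendence basis `B`; `K'` is an algebraic closure of `K[B]`; the
automorphism `X_z ↦ X_z + n` of `K[B]` extends to `K'`.
-/
import Mathlib

set_option autoImplicit false

noncomputable section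

namespace Fermat.Agent.F3I2

open MvPolynomial

/-- An algebraic element of an extension of an algebraically closed field lies in the base. -/
theorem autC_mem_range_of_isAlgebraic {K K' : Type*} [Field K] [Field K'] [IsAlgClosed K]
    [Algebra K K'] {z : K'} (hz : IsAlgebraic K z) : z ∈ Set.range (algebraMap K K') := by
  have hint : IsIntegral K z := hz.isIntegral
  refine ⟨-(minpoly K z).coeff 0, ?_⟩
  have hq : (minpoly K z).leadingCoeff = 1 := minpoly.monic hint
  have h : (minpoly K z).degree = 1 :=
    IsAlgClosed.degree_eq_one_of_irreducible K (minpoly.irreducible hint)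
  have h0 : Polynomial.aeval z (minpoly K z) = 0 := minpoly.aeval K z
  rw [Polynomial.eq_X_add_C_of_degree_eq_one h, hq, Polynomial.C_1, one_mul, Polynomial.aeval_add,
    Polynomial.aeval_X, Polynomial.aeval_C, add_eq_zero_iff_eq_neg] at h0
  exact (map_neg (algebraMap K K') ((minpoly K z).coeff 0)).symm ▸ h0.symm

/-- The translation `X_i ↦ X_i + c_i` as an algebra homomorphism of the polynomial ring. -/
def autCShiftHom {K : Type*} [CommRing K] {ι : Type*} (c : ι → K) :
    MvPolynomial ι K →ₐ[K] MvPolynomial ι K :=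
  aeval (fun i => X i + C (c i))

@[simp] theorem autCShiftHom_X {K : Type*} [CommRing K] {ι : Type*} (c : ι → K) (i : ι) :
    autCShiftHom c (X i) = X i + C (c i) := by
  simp [autCShiftHom]

/-- The translation `X_i ↦ X_i + c_i` as an automorphism of the polynomial ring. -/
def autCShift {K : Type*} [CommRing K] {ι : Type*} (c : ι → K) :
    MvPolynomial ι K ≃ₐ[K] MvPolynomial ι K :=
  AlgEquiv.ofAlgHom (autCShiftHom c) (autCShiftHom (fun i => -c i))
    (by ext i; simp)
    (by ext i; simp)

@[simp] theorem autCShift_X {K : Type*} [CommRing K] {ι : Type*} (c : ι → K) (i : ι) :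
    autCShift c (X i) = X i + C (c i) := by
  simp [autCShift]

theorem exists_aut_translate {K K' : Type*} [Field K] [Field K'] [IsAlgClosed K]
    [IsAlgClosed K'] [CharZero K']
    (ι : K →+* K') (z : K') (hz : z ∉ Set.range ι) (n : ℕ) :
    ∃ σ : K' ≃+* K', (∀ a, σ (ι a) = ι a) ∧ σ z = z + n := by
  classical
  let _ : Algebra K K' := ι.toAlgebra
  have hzt : Transcendental K z := fun hz' => hz (autC_mem_range_of_isAlgebraic hz')
  have hs : AlgebraicIndepOn K id ({z} : Set K') := by
    have : Subsingleton (({z} : Set K')) := by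
      refine ⟨fun a b => Subtype.ext ?_⟩
      rw [Set.mem_singleton_iff.mp a.2, Set.mem_singleton_iff.mp b.2]
    exact (algebraicIndependent_singleton_iff (⟨z, rfl⟩ : ({z} : Set K'))).mpr hzt
  obtain ⟨B, hzB, hB⟩ := exists_isTranscendenceBasis_superset hs
  have hzB' : z ∈ B := hzB rfl
  let c : B → K := fun b => if (b : K') = z then (n : K) else 0
  let e : Algebra.adjoin K (Set.range ((↑) : B → K')) ≃ₐ[K]
      Algebra.adjoin K (Set.range ((↑) : B → K')) :=
    hB.1.aevalEquiv.symm.trans ((autCShift c).trans hB.1.aevalEquiv)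
  have := IsAlgClosed.isAlgClosure_of_transcendence_basis _ hB
  refine ⟨IsAlgClosure.equivOfEquiv K' K' e.toRingEquiv, ?_, ?_⟩
  · intro a
    have h1 : ι a = algebraMap (Algebra.adjoin K (Set.range ((↑) : B → K'))) K'
        (algebraMap K _ a) := rfl
    rw [h1, IsAlgClosure.equivOfEquiv_algebraMap]
    congr 1
    exact e.commutes a
  · let i : B := ⟨z, hzB'⟩
    let zB : Algebra.adjoin K (Set.range ((↑) : B → K')) :=
      ⟨z, Algebra.subset_adjoin ⟨i, rfl⟩⟩
    have h1 : z = algebraMap (Algebra.adjoin K (Set.range ((↑) : B → K'))) K' zB := rfl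
    have h2 : hB.1.aevalEquiv (X i) = zB := by
      apply Subtype.ext
      have h5 := hB.1.algebraMap_aevalEquiv (X i)
      rw [aeval_X] at h5
      exact h5
    have h3 : hB.1.aevalEquiv.symm zB = X i := by
      rw [← h2, AlgEquiv.symm_apply_apply]
    have h4 : e zB = hB.1.aevalEquiv (X i + C (n : K)) := by
      show hB.1.aevalEquiv ((autCShift c) (hB.1.aevalEquiv.symm zB)) = _
      rw [h3, autCShift_X]
      simp [c, i]
    conv_lhs => rw [h1]
    rw [IsAlgClosure.equivOfEquiv_algebraMap]
    show algebraMap (Algebra.adjoin K (Set.range ((↑) : B → K'))) K' (e zB) = z + n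
    rw [h4, hB.1.algebraMap_aevalEquiv]
    simp only [map_add, aeval_X, aeval_C, i]
    congr 1
    exact map_natCast ι n

theorem mem_range_of_finite_orbit {K K' : Type*} [Field K] [Field K'] [IsAlgClosed K]
    [IsAlgClosed K'] [CharZero K']
    (ι : K →+* K') (z : K')
    (hfin : Set.Finite {y : K' | ∃ σ : K' ≃+* K', (∀ a, σ (ι a) = ι a) ∧ σ z = y}) :
    z ∈ Set.range ι := by
  by_contra hz
  have hinj : Function.Injective (fun n : ℕ => z + (n : K')) := by
    intro a b hab
    have : (a : K') = (b : K') := add_left_cancel hab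
    exact_mod_cast this
  have hsub : Set.range (fun n : ℕ => z + (n : K')) ⊆
      {y : K' | ∃ σ : K' ≃+* K', (∀ a, σ (ι a) = ι a) ∧ σ z = y} := by
    rintro _ ⟨n, rfl⟩
    exact exists_aut_translate ι z hz n
  exact (Set.infinite_range_of_injective hinj) (hfin.subset hsub)

end Fermat.Agent.F3I2
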