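/-
Cluster A (F3), piece A3e (descent ℂ → ℚ̄), helper82.

`G = Aut(K'/K) ⊂ Aut(K'/ℚ)` acts on `F' = laurentBaseChange K' F₀` coefficientwise
(Prelude `arithmeticGalois`).  This file:
* `descGal K K'` and `descGal_smul_theta` (`G` fixes `θ F` pointwise);
* `descTheta_of_finite_orbit` : an element of `F'` with finite `G`-orbit lies in `θ F`
  (`K ⊂ K'` algebraically closed of characteristic `0`);
* `descFixed_of_const`, `descFixed_of_ord` : a function normalised by one coefficient `= 1`
  whose divisor is `σ`-stable is `σ`-fixed.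
-/
import Mathlib
import Fermat.Prelude.Def_ModularCurve_ArithmeticGalois
import Fermat.Agent.F3.I2.Descent.Theta
import Fermat.Agent.F3.I2.Descent.AutC

set_option autoImplicit false

noncomputable section

namespace Fermat.Agent.F3I2

open ModularCurve HahnSeries AlgebraicCurve

section Gal

variable (K K' : Type*) [Field K] [Field K'] [Algebra ℚ K] [Algebra ℚ K'] [Algebra K K']
variable (F₀ : IntermediateField ℚ (LaurentSeries ℚ))

/-- `Aut(K'/K)` as a subgroup of `Aut(K'/ℚ)`. -/
def descGal : Subgroup (K' ≃ₐ[ℚ] K') where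
  carrier := {σ | ∀ a : K, σ (algebraMap K K' a) = algebraMap K K' a}
  one_mem' := fun _ => rfl
  mul_mem' := by
    intro σ τ hσ hτ a
    show σ (τ _) = _
    rw [hτ a, hσ a]
  inv_mem' := by
    intro σ hσ a
    show σ⁻¹ _ = _
    conv_lhs => rw [← hσ a]
    exact σ.symm_apply_apply _

variable {K K'} in
theorem mem_descGal {σ : K' ≃ₐ[ℚ] K'} :
    σ ∈ descGal K K' ↔ ∀ a : K, σ (algebraMap K K' a) = algebraMap K K' a := Iff.rfl

variable {K K'} in
theorem descGal_coeffMap {σ : K' ≃ₐ[ℚ] K'} (hσ : σ ∈ descGal K K') (y : LaurentSeries K) :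
    coeffMap (σ : K' →+* K') (coeffMap (algebraMap K K') y) = coeffMap (algebraMap K K') y := by
  ext k
  simp only [coeffMap_coeff]
  exact hσ _

variable {K K'} in
/-- `G` fixes `θ F` pointwise. -/
theorem descGal_smul_theta {σ : K' ≃ₐ[ℚ] K'} (hσ : σ ∈ descGal K K')
    (f : laurentBaseChange K F₀) :
    arithmeticGalois F₀ σ • descTheta K K' F₀ f = descTheta K K' F₀ f :=
  Subtype.ext (descGal_coeffMap hσ _)

/-- a ring automorphism of `K'` as a `ℚ`-algebra automorphism -/
def descRatAlgEquiv (σ : K' ≃+* K') : K' ≃ₐ[ℚ] K' :=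
  AlgEquiv.ofRingEquiv (f := σ) (fun q => by
    exact RingHom.map_rat_algebraMap (σ : K' →+* K') q)

@[simp]
theorem descRatAlgEquiv_apply (σ : K' ≃+* K') (z : K') : descRatAlgEquiv K' σ z = σ z := rfl

/-- an element of `K'` with finite `G`-orbit lies in `K`. -/
theorem descGal_mem_range_of_finite_orbit [IsAlgClosed K] [IsAlgClosed K'] [CharZero K'] (z : K')
    (hfin : Set.Finite {y : K' | ∃ σ ∈ descGal K K', σ z = y}) :
    z ∈ Set.range (algebraMap K K') := by
  refine mem_range_of_finite_orbit (algebraMap K K') z (hfin.subset ?_)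
  rintro y ⟨σ, hσ, rfl⟩
  exact ⟨descRatAlgEquiv K' σ, fun a => hσ a, rfl⟩

/-- an element of `F'` with finite `G`-orbit lies in `θ F`. -/
theorem descTheta_of_finite_orbit [IsAlgClosed K] [IsAlgClosed K'] [CharZero K']
    (x : laurentBaseChange K' F₀)
    (hfin : Set.Finite {y : laurentBaseChange K' F₀ |
      ∃ σ ∈ descGal K K', arithmeticGalois F₀ σ • x = y}) :
    x ∈ Set.range (descTheta K K' F₀) := by
  refine descTheta_rational K K' F₀ x fun k => ?_
  refine descGal_mem_range_of_finite_orbit K K' _ ?_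
  refine (hfin.image fun y : laurentBaseChange K' F₀ => (y : LaurentSeries K').coeff k).subset ?_
  rintro y ⟨σ, hσ, rfl⟩
  exact ⟨_, ⟨σ, hσ, rfl⟩, rfl⟩

end Gal

section Normalise

variable {K' : Type*} [Field K'] [Algebra ℚ K']
variable (F₀ : IntermediateField ℚ (LaurentSeries ℚ))

theorem descCoe_const_mul (c : K') (x : laurentBaseChange K' F₀) (k : ℤ) :
    ((algebraMap K' (laurentBaseChange K' F₀) c * x : laurentBaseChange K' F₀) :
      LaurentSeries K').coeff k = c * (x : LaurentSeries K').coeff k :=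
  descCoeff_const_mul c (x : LaurentSeries K') k

/-- every nonzero function has a constant multiple with some coefficient equal to `1`. -/
theorem descNormalize (x : laurentBaseChange K' F₀) (hx : x ≠ 0) :
    ∃ (c : K') (k : ℤ), c ≠ 0 ∧
      ((algebraMap K' (laurentBaseChange K' F₀) c * x : laurentBaseChange K' F₀) :
        LaurentSeries K').coeff k = 1 := by
  have hx' : (x : LaurentSeries K') ≠ 0 := fun h => hx (Subtype.ext h)
  obtain ⟨k, hk⟩ : ∃ k, (x : LaurentSeries K').coeff k ≠ 0 := by
    by_contra hcon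
    push_neg at hcon
    exact hx' (HahnSeries.ext (funext hcon))
  exact ⟨((x : LaurentSeries K').coeff k)⁻¹, k, inv_ne_zero hk, by
    rw [descCoe_const_mul, inv_mul_cancel₀ hk]⟩

/-- a normalised function that is multiplied by a constant under `σ` is fixed by `σ`. -/
theorem descFixed_of_const (x : laurentBaseChange K' F₀) (k : ℤ)
    (hk : (x : LaurentSeries K').coeff k = 1) (σ : K' ≃ₐ[ℚ] K') (u : K')
    (h : arithmeticGalois F₀ σ • x = algebraMap K' (laurentBaseChange K' F₀) u * x) :
    arithmeticGalois F₀ σ • x = x := by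
  have h1 := congrArg (fun y : laurentBaseChange K' F₀ => (y : LaurentSeries K').coeff k) h
  simp only [coe_arithmeticGalois_smul, coeffMap_coeff, descCoe_const_mul, hk, mul_one] at h1
  have hu : u = 1 := by
    rw [← h1]
    exact map_one σ
  rw [h, hu, map_one, one_mul]

/-- a normalised function whose divisor is stable under `σ` is fixed by `σ`. -/
theorem descFixed_of_ord
    (hconst : ∀ y : laurentBaseChange K' F₀, y ≠ 0 →
      (∀ w : Place K' (laurentBaseChange K' F₀), w.ord y = 0) →
      ∃ a : K', y = algebraMap K' (laurentBaseChange K' F₀) a)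
    (x : laurentBaseChange K' F₀) (k : ℤ)
    (hk : (x : LaurentSeries K').coeff k = 1) (σ : K' ≃ₐ[ℚ] K')
    (hσ : ∀ w : Place K' (laurentBaseChange K' F₀),
      (arithmeticGalois F₀ σ • w).ord x = w.ord x) :
    arithmeticGalois F₀ σ • x = x := by
  set g := arithmeticGalois F₀ σ with hg
  have hx0 : x ≠ 0 := by
    rintro rfl
    simp at hk
  have hgx0 : g • x ≠ 0 := by simpa using hx0
  have hord : ∀ w : Place K' (laurentBaseChange K' F₀), w.ord (g • x) = w.ord x := by
    intro w
    have h1 := SemilinearAut.ord_smul g (g⁻¹ • w) x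
    rw [smul_inv_smul] at h1
    rw [h1]
    have h2 := hσ (g⁻¹ • w)
    rw [smul_inv_smul] at h2
    exact h2.symm
  obtain ⟨u, hu⟩ := hconst (g • x * x⁻¹) (mul_ne_zero hgx0 (inv_ne_zero hx0)) (fun w => by
    rw [w.ord_mul hgx0 (inv_ne_zero hx0), w.ord_inv, hord w, add_neg_cancel])
  refine descFixed_of_const F₀ x k hk σ u ?_
  rw [← hu, mul_assoc, inv_mul_cancel₀ hx0, mul_one]

end Normalise

end Fermat.Agent.F3I2
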